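import Fermat.Agent.MR.VS.Interface
import Fermat.Agent.ES.All

/-!
# MR / VS : the eigenclasses form a Galois stable class group (`Stmt_EigGroup`)   (helper97)
-/

set_option autoImplicit false

namespace Fermat.Agent.MR.VS

open AlgebraicCurve
open Fermat.Agent.S24 (Qbar FF)
open Fermat.Agent.ES.Mid
open Fermat.Agent.ORD.Geo (IsClassGroup)

/-- `formalN` preserves `F_N` (unconditional). -/
theorem EigGroup_mem (N : ℕ) [NeZero N] {ℓ : ℕ} [NeZero ℓ] (hℓ : ℓ.Prime) (hℓN : ¬ ℓ ∣ N)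
    (ζ : Qbarˣ) (hζ : IsPrimitiveRoot ζ ℓ) (u : FF N) :
    formalN ℓ ζ (u : LaurentSeries Qbar) ∈ ModularCurve.modularFunctionFieldBar N :=
  HG.formalN_mem INV.invRat ha_char ha_mdiff HA2.stmt_HA_rep HA3.ha_growth HF1.hf_mul N hℓ hℓN ζ hζ u

section abstract

variable {K : Type*} [Field K] (n : K → K) (h1 : n 1 = 1) (hm : ∀ x y, n (x * y) = n x * n y)

include hm in
theorem EigGroup_abs_mul {u v f g : K} {a : ℤ} {p : ℕ} (hu : n u = u ^ a * f ^ p)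
    (hv : n v = v ^ a * g ^ p) : n (u * v) = (u * v) ^ a * (f * g) ^ p := by
  rw [hm, hu, hv, mul_zpow, mul_pow]
  ring

include h1 hm in
theorem EigGroup_abs_inv {u f : K} {a : ℤ} {p : ℕ} (h0 : u ≠ 0) (hu : n u = u ^ a * f ^ p) :
    n u⁻¹ = u⁻¹ ^ a * f⁻¹ ^ p := by
  have h2 : n u⁻¹ * n u = 1 := by rw [← hm, inv_mul_cancel₀ h0, h1]
  rw [eq_inv_of_mul_eq_one_left h2, hu, mul_inv, inv_zpow, inv_pow]

include h1 hm in
theorem EigGroup_abs_npow (f : K) (p : ℕ) : n (f ^ p) = n f ^ p := by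
  induction p with
  | zero => simpa using h1
  | succ k ih => rw [pow_succ, hm, ih, pow_succ]

include h1 hm in
theorem EigGroup_abs_pow {f : K} (a : ℤ) (p : ℕ) (h0 : f ≠ 0) :
    n (f ^ p) = (f ^ p) ^ a * (n f / f ^ a) ^ p := by
  have h2 : (f ^ p) ^ a = (f ^ a) ^ p := by
    rw [← zpow_natCast f p, ← zpow_natCast (f ^ a) p, ← zpow_mul, ← zpow_mul, mul_comm]
  rw [EigGroup_abs_npow n h1 hm, h2, div_pow, mul_div_cancel₀ _ (pow_ne_zero _ (zpow_ne_zero _ h0))]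

end abstract

theorem EigGroup_isDiv_pow {N : ℕ} (p : ℕ) {f : FF N} (hf : f ≠ 0) : IsDiv N p (f ^ p) := by
  refine ⟨pow_ne_zero _ hf, fun P => ?_⟩
  rw [← zpow_natCast f p, Place.ord_zpow]
  exact dvd_mul_right _ _

/-- (EIG-GROUP). -/
theorem stmt_EigGroup : Stmt_EigGroup := by
  intro N _ p _ _ a Good
  refine ⟨⟨fun u hu => hu.1, ?_, ?_, ?_⟩, ?_⟩
  · intro u hu v hv
    refine ⟨GLUE.isDiv_mul hu.1 hv.1, ?_⟩
    intro ℓ _ hℓ hℓN hG ζ hζ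
    obtain ⟨f, hf⟩ := hu.2 ℓ hℓ hℓN hG ζ hζ
    obtain ⟨g, hg⟩ := hv.2 ℓ hℓ hℓN hG ζ hζ
    have hmem := EigGroup_mem N hℓ hℓN ζ hζ
    have hf' : HG.mkN hmem u = u ^ a ℓ * f ^ p := Subtype.ext hf
    have hg' : HG.mkN hmem v = v ^ a ℓ * g ^ p := Subtype.ext hg
    exact ⟨f * g, congrArg Subtype.val
      (EigGroup_abs_mul (HG.mkN hmem) (HG.mkN_mul hmem HF1.hf_mul hζ) hf' hg')⟩
  · intro u hu
    refine ⟨GLUE.isDiv_inv hu.1, ?_⟩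
    intro ℓ _ hℓ hℓN hG ζ hζ
    obtain ⟨f, hf⟩ := hu.2 ℓ hℓ hℓN hG ζ hζ
    have hmem := EigGroup_mem N hℓ hℓN ζ hζ
    have hf' : HG.mkN hmem u = u ^ a ℓ * f ^ p := Subtype.ext hf
    have h1 : HG.mkN hmem (1 : FF N) = 1 := Subtype.ext (HF1.hf_mul Qbar ℓ ζ hζ).1
    exact ⟨f⁻¹, congrArg Subtype.val
      (EigGroup_abs_inv (HG.mkN hmem) h1 (HG.mkN_mul hmem HF1.hf_mul hζ) hu.1.1 hf')⟩
  · intro f hf
    refine ⟨EigGroup_isDiv_pow p hf, ?_⟩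
    intro ℓ _ hℓ hℓN hG ζ hζ
    have hmem := EigGroup_mem N hℓ hℓN ζ hζ
    have h1 : HG.mkN hmem (1 : FF N) = 1 := Subtype.ext (HF1.hf_mul Qbar ℓ ζ hζ).1
    exact ⟨HG.mkN hmem f / f ^ a ℓ, congrArg Subtype.val
      (EigGroup_abs_pow (HG.mkN hmem) h1 (HG.mkN_mul hmem HF1.hf_mul hζ) (a ℓ) p hf)⟩
  · intro σ u hu
    refine ⟨GLUE.isDiv_gal hu.1 σ, ?_⟩
    intro ℓ _ hℓ hℓN hG ζ hζ
    obtain ⟨f, hf⟩ := hu.2 ℓ hℓ hℓN hG ζ hζ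
    have hmem := EigGroup_mem N hℓ hℓN ζ hζ
    have hf' : HG.mkN hmem u = u ^ a ℓ * f ^ p := Subtype.ext hf
    have h2 : HG.mkN hmem (gal N σ u) = gal N σ u ^ a ℓ * gal N σ f ^ p := by
      rw [HG.mkN_gal hmem HF1.hf_map HF1.hf_indep hζ, hf', map_mul, map_zpow₀, map_pow]
    exact ⟨gal N σ f, congrArg Subtype.val h2⟩

end Fermat.Agent.MR.VS
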