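import Fermat.Agent.MR.EC.Interface
import Fermat.Agent.MR.Top
import Fermat.Agent.ORD.Geo.Interface
import Fermat.Agent.ES.Mid.HeckeDefs
import Fermat.Agent.ES.Coh.Theta

/-!
# MR / VS : the modular side of S44 in function language (architect helper90)

`F_N = FF N`, classes of functions with divisor divisible by `p` modulo `p`-th powers
(`= X_p(N) = J₀(N)[p]`), set language of `ORD/Geo` (`IsClassGroup`).

OUTPUT of the package (consumed by the MR skeleton):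
* `Stmt_PELift`     : every `PE` character `Γ₀(N) → ℤ/p` lifts to `H = Hom_par(Γ₀(N), ℤ)`
                      (so `X_p(N) = H / p H` is a module over the Hecke algebra of `S₂(N)`);
* `Stmt_NoEig`      : `congIdeal N p a Good = ⊤` ⟹ every eigenclass is trivial;
* `Stmt_EigFun`     : `congIdeal N p a Good ≠ ⊤` ⟹ there is a nontrivial eigenclass;
* `Stmt_CongOfForm` : an eigenform congruent to `a` gives `congIdeal ≠ ⊤`;
* `Stmt_EigGroup`, `Stmt_EigFrob`, `Stmt_LevelFF` : the eigenclasses form a Galois stable class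
                      group of finite level with the Eichler-Shimura relations;
* `Stmt_TransferFF` : `σ - c` kills `E[p]` iff it kills the classes of `XX`.
-/

set_option autoImplicit false

namespace Fermat.Agent.MR.VS

open CongruenceSubgroup
open WeierstrassCurve WeierstrassCurve.Affine WeierstrassCurve.Affine.Point
open Fermat.Agent.S24 (Qbar FF)
open Fermat.Agent.ES.Mid
open Fermat.Agent.ORD.Geo (IsClassGroup)
open Fermat.Agent.MR.EC (rhoE)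

/-- the eigenclasses: `N_ℓ u = u ^ (a ℓ)` modulo `p`-th powers for all good `ℓ ∤ N`. -/
def EigCl (N p : ℕ) (a : ℕ → ℤ) (Good : ℕ → Prop) : Set (FF N) :=
  {u | IsDiv N p u ∧ ∀ (ℓ : ℕ) [NeZero ℓ], ℓ.Prime → ¬ ℓ ∣ N → Good ℓ →
    ∀ ζ : Qbarˣ, IsPrimitiveRoot ζ ℓ → ∃ f : FF N,
      formalN ℓ ζ (u : LaurentSeries Qbar) = ((u ^ (a ℓ) * f ^ p : FF N) : LaurentSeries Qbar)}

/-- `χ` is an eigencharacter. -/
def IsEigChar (N p : ℕ) (a : ℕ → ℤ) (Good : ℕ → Prop) (χ : Additive (Gamma0 N) →+ ZMod p) :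
    Prop :=
  ∀ ℓ : Nat.Primes, ¬ (ℓ : ℕ) ∣ N → Good ℓ → tau N ℓ (ZMod p) χ = a ℓ • χ

/-! ## Part 1 : `X_p = H / p H` -/

/-- (TORS-SURJ) abstract counting. -/
def Stmt_TorsSurj : Prop :=
  ∀ (G : Type) [AddCommGroup G] (p g : ℕ), p.Prime →
    (∀ k : ℕ, Nat.card {x : G // p ^ k • x = 0} = p ^ (g * k)) →
    ∀ (k : ℕ) (x : G), p ^ k • x = 0 → ∃ y : G, p ^ (k + 1) • y = 0 ∧ p • y = x

/-- (DIV-LIFT) `p : Pic⁰[p^(k+1)] → Pic⁰[p^k]` is onto, in function language. -/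
def Stmt_DivLift : Prop :=
  ∀ (N : ℕ) [NeZero N] (p : ℕ), p.Prime → ∀ (k : ℕ) (u : FF N), IsDiv N (p ^ k) u →
    ∃ u' g : FF N, IsDiv N (p ^ (k + 1)) u' ∧ g ≠ 0 ∧ u = u' * g ^ (p ^ k)

/-- (RED-SURJ) reduction of `PE` characters is onto. -/
def Stmt_RedSurj : Prop :=
  ∀ (N : ℕ) [NeZero N] (p : ℕ) [NeZero p], p.Prime → ∀ (k : ℕ)
    (χ : Additive (Gamma0 N) →+ ZMod (p ^ k)), IsPE χ →
    ∃ χ' : Additive (Gamma0 N) →+ ZMod (p ^ (k + 1)), IsPE χ' ∧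
      redChar (pow_dvd_pow p (Nat.le_succ k)) χ' = χ

/-- (PE-LIFT) **output**. -/
def Stmt_PELift : Prop :=
  ∀ (N : ℕ) [NeZero N] (p : ℕ) [NeZero p], p.Prime →
    ∀ χ : Additive (Gamma0 N) →+ ZMod p, IsPE χ →
    ∃ h : ES.Coh.H N, (Int.castAddHom (ZMod p)).comp h.1 = χ

/-- (RED-H) the reduction `H / p H → X_p` is well defined, injective and Hecke equivariant. -/
def Stmt_RedH : Prop :=
  ∀ (N : ℕ) [NeZero N] (p : ℕ) [NeZero p], p.Prime → ∀ h : ES.Coh.H N,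
    IsPE ((Int.castAddHom (ZMod p)).comp h.1) ∧
    ((Int.castAddHom (ZMod p)).comp h.1 = 0 → ∃ h' : ES.Coh.H N, h = p • h') ∧
    ∀ ℓ : Nat.Primes, (Int.castAddHom (ZMod p)).comp (ES.Coh.tauH N ℓ h).1
      = tau N ℓ (ZMod p) ((Int.castAddHom (ZMod p)).comp h.1)

/-! ## Part 2 : eigencharacters and the congruence ideal -/

/-- (SOCLE) -/
def Stmt_Socle : Prop :=
  ∀ (R M : Type) [CommRing R] [AddCommGroup M] [Module R M] [Finite M] (I : Ideal R),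
    I • (⊤ : Submodule R M) ≠ ⊤ → ∃ x : M, x ≠ 0 ∧ ∀ r ∈ I, r • x = 0

/-- (EIG-CHAR) -/
def Stmt_EigChar : Prop :=
  ∀ (N : ℕ) [NeZero N] (p : ℕ) [NeZero p], p.Prime → ∀ (a : ℕ → ℤ) (Good : ℕ → Prop),
    MR.congIdeal N p a Good ≠ ⊤ →
    ∃ χ : Additive (Gamma0 N) →+ ZMod p, χ ≠ 0 ∧ IsPE χ ∧ IsEigChar N p a Good χ

/-- (NO-EIG-CHAR) -/
def Stmt_NoEigChar : Prop :=
  ∀ (N : ℕ) [NeZero N] (p : ℕ) [NeZero p], p.Prime → ∀ (a : ℕ → ℤ) (Good : ℕ → Prop),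
    MR.congIdeal N p a Good = ⊤ →
    ∀ χ : Additive (Gamma0 N) →+ ZMod p, IsPE χ → IsEigChar N p a Good χ → χ = 0

/-- (EIG-DICT) the dictionary between eigenclasses and eigencharacters. -/
def Stmt_EigDict : Prop :=
  ∀ (N : ℕ) [NeZero N] (p : ℕ) [NeZero p], p.Prime → ∀ (a : ℕ → ℤ) (Good : ℕ → Prop)
    (u : FF N) (χ : Additive (Gamma0 N) →+ ZMod p), Kum N p u χ → IsPE χ →
    (u ∈ EigCl N p a Good ↔ IsEigChar N p a Good χ)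

/-- (NO-EIG) **output**. -/
def Stmt_NoEig : Prop :=
  ∀ (N : ℕ) [NeZero N] (p : ℕ) [NeZero p], p.Prime → ∀ (a : ℕ → ℤ) (Good : ℕ → Prop),
    MR.congIdeal N p a Good = ⊤ → ∀ u ∈ EigCl N p a Good, ∃ f : FF N, u = f ^ p

/-- (EIG-FUN) **output**. -/
def Stmt_EigFun : Prop :=
  ∀ (N : ℕ) [NeZero N] (p : ℕ) [NeZero p], p.Prime → ∀ (a : ℕ → ℤ) (Good : ℕ → Prop),
    MR.congIdeal N p a Good ≠ ⊤ → ∃ u ∈ EigCl N p a Good, ¬ ∃ f : FF N, u = f ^ p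

/-- (CONG-OF-FORM) **output**. -/
def Stmt_CongOfForm : Prop :=
  ∀ (N : ℕ) [NeZero N] (p : ℕ) (a : ℕ → ℤ) (Good : ℕ → Prop) (f : CuspForm (Gamma0 N) 2)
    (𝔪 : Ideal (integralClosure ℤ ℂ)), f.IsNormalizedEigenform → 𝔪.IsMaximal →
    (p : integralClosure ℤ ℂ) ∈ 𝔪 →
    (∀ ℓ : ℕ, ℓ.Prime → ¬ ℓ ∣ N → Good ℓ →
      ∃ b : integralClosure ℤ ℂ, (b : ℂ) = ModularFormClass.qCoeff f ℓ ∧
        b - ((a ℓ : ℤ) : integralClosure ℤ ℂ) ∈ 𝔪) →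
    MR.congIdeal N p a Good ≠ ⊤

/-! ## Part 3 : Galois action on the classes -/

/-- (EIG-GROUP) **output**. -/
def Stmt_EigGroup : Prop :=
  ∀ (N : ℕ) [NeZero N] (p : ℕ) [NeZero p], p.Prime → ∀ (a : ℕ → ℤ) (Good : ℕ → Prop),
    IsClassGroup N p (EigCl N p a Good) ∧
    ∀ (σ : GQ), ∀ u ∈ EigCl N p a Good, gal N σ u ∈ EigCl N p a Good

/-- (LEVEL-FF) **output**: the classes have finite level. -/
def Stmt_LevelFF : Prop :=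
  ∀ (N : ℕ) [NeZero N] (m : ℕ) [NeZero m],
    ∃ L : IntermediateField ℚ Qbar, FiniteDimensional ℚ L ∧
      ∀ σ : GQ, (∀ x ∈ L, σ x = x) → ∀ u : FF N, IsDiv N m u → ∃ f : FF N, gal N σ u = u * f ^ m

/-- (FROB-FF) the Eichler-Shimura relation in function language. -/
def Stmt_FrobFF : Prop :=
  ∀ (N : ℕ) [NeZero N] (m : ℕ) [NeZero m] (ℓ : ℕ) [NeZero ℓ], ℓ.Prime → ¬ ℓ ∣ N → ¬ ℓ ∣ m →
    ∀ A : ValuationSubring Qbar, A.LiesOverPrime ℓ → ∀ σ : GQ, A.IsFrobeniusAt σ ℓ →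
    ∀ ζ : Qbarˣ, IsPrimitiveRoot ζ ℓ → ∀ u : FF N, IsDiv N m u → ∃ f : FF N,
      ((gal N σ (gal N σ u) * u ^ ℓ : FF N) : LaurentSeries Qbar)
        = formalN ℓ ζ (gal N σ u : LaurentSeries Qbar) * ((f ^ m : FF N) : LaurentSeries Qbar)

/-- (EIG-FROB) **output**. -/
def Stmt_EigFrob : Prop :=
  ∀ (N : ℕ) [NeZero N] (p : ℕ) [NeZero p], p.Prime → ∀ (a : ℕ → ℤ) (Good : ℕ → Prop)
    (ℓ : ℕ), ℓ.Prime → ¬ ℓ ∣ N → ℓ ≠ p → Good ℓ →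
    ∀ A : ValuationSubring Qbar, A.LiesOverPrime ℓ → ∀ σ : GQ, A.IsFrobeniusAt σ ℓ →
    ∀ u ∈ EigCl N p a Good, ∃ f : FF N,
      gal N σ (gal N σ u) * u ^ ℓ = gal N σ u ^ (a ℓ) * f ^ p

/-! ## Part 4 : transfer -/

/-- (TRANSFER-EL) elementwise form of `EC.Stmt_Transfer`: `V = Vs / B`. -/
def Stmt_TransferEl : Prop :=
  ∀ (P : FreyPackage) (W : WeierstrassCurve ℤ), W.IsIntegralModelOf P.freyCurve →
    (P.p : ℤ) ∣ P.a * P.b * P.c → GaloisRepIsIrreducible (K := Qbar) ℚ P.freyCurve P.p →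
    ∀ (U : Type) [CommGroup U] (act : GQ →* MulAut U) (Vs B : Subgroup U),
      B ≤ Vs → (∃ u ∈ Vs, u ∉ B) → (∀ u ∈ Vs, u ^ P.p ∈ B) →
      (∀ σ, ∀ u ∈ Vs, act σ u ∈ Vs) → (∀ σ, ∀ u ∈ B, act σ u ∈ B) →
      (∃ L : IntermediateField ℚ Qbar, FiniteDimensional ℚ L ∧
        ∀ σ : GQ, (∀ x ∈ L, σ x = x) → ∀ u ∈ Vs, act σ u / u ∈ B) →
      (∃ S : Finset ℕ, ∀ ℓ : ℕ, ℓ.Prime → ℓ ∉ S → ∀ A : ValuationSubring Qbar,
        A.LiesOverPrime ℓ → ∀ σ : GQ, A.IsFrobeniusAt σ ℓ → ∀ u ∈ Vs,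
          act σ (act σ u) * u ^ ℓ / act σ u ^ (W.apOfModel ℓ) ∈ B) →
      ∀ (σ : GQ) (c : ℕ), rhoE P σ = (c : ZMod P.p) • 1 ↔ ∀ u ∈ Vs, act σ u / u ^ c ∈ B

/-- (TRANSFER-FF) **output**. -/
def Stmt_TransferFF : Prop :=
  ∀ (P : FreyPackage) (W : WeierstrassCurve ℤ), W.IsIntegralModelOf P.freyCurve →
    (P.p : ℤ) ∣ P.a * P.b * P.c → GaloisRepIsIrreducible (K := Qbar) ℚ P.freyCurve P.p →
    ∀ (N : ℕ) [NeZero N] (XX : Set (FF N)), IsClassGroup N P.p XX →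
      (∃ u ∈ XX, ¬ ∃ f : FF N, u = f ^ P.p) → (∀ σ : GQ, ∀ u ∈ XX, gal N σ u ∈ XX) →
      (∃ S : Finset ℕ, ∀ ℓ : ℕ, ℓ.Prime → ℓ ∉ S → ∀ A : ValuationSubring Qbar,
        A.LiesOverPrime ℓ → ∀ σ : GQ, A.IsFrobeniusAt σ ℓ → ∀ u ∈ XX, ∃ f : FF N,
          gal N σ (gal N σ u) * u ^ ℓ = gal N σ u ^ (W.apOfModel ℓ) * f ^ P.p) →
      ∀ (σ : GQ) (c : ℕ), rhoE P σ = (c : ZMod P.p) • 1 ↔
        ∀ u ∈ XX, ∃ f : FF N, gal N σ u = u ^ c * f ^ P.p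

/-- (TRANSFER-EIG) **output**: the special case of a Galois stable class group of eigenclasses at
the level `N` itself. -/
def Stmt_TransferEig : Prop :=
  ∀ (P : FreyPackage) (W : WeierstrassCurve ℤ), W.IsIntegralModelOf P.freyCurve →
    (P.p : ℤ) ∣ P.a * P.b * P.c → GaloisRepIsIrreducible (K := Qbar) ℚ P.freyCurve P.p →
    ∀ (N : ℕ) [NeZero N] (XX : Set (FF N)), IsClassGroup N P.p XX →
      XX ⊆ EigCl N P.p (fun ℓ => W.apOfModel ℓ) (fun ℓ => W.IsGoodPrimeFor ℓ ∧ ℓ ≠ P.p) →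
      (∃ u ∈ XX, ¬ ∃ f : FF N, u = f ^ P.p) → (∀ σ : GQ, ∀ u ∈ XX, gal N σ u ∈ XX) →
      ∀ (σ : GQ) (c : ℕ), rhoE P σ = (c : ZMod P.p) • 1 ↔
        ∀ u ∈ XX, ∃ f : FF N, gal N σ u = u ^ c * f ^ P.p

end Fermat.Agent.MR.VS
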