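import Fermat.Agent.MR.VS.Interface
import Fermat.Agent.ES.EigenChar

/-!
# MR / VS : (CONG-OF-FORM) an eigenform congruent to `a` gives `congIdeal ≠ ⊤`
-/

set_option autoImplicit false

namespace Fermat.Agent.MR.VS

open CongruenceSubgroup

theorem stmt_CongOfForm : Stmt_CongOfForm := by
  intro N _ p a Good f 𝔪 hf hmax hp hcong htop
  obtain ⟨lam, -, hlam⟩ := Fermat.Agent.ES.EigenChar.exists_eigenChar (N := N) (∅ : Set ℕ) hf
  have hle : MR.congIdeal N p a Good ≤ 𝔪.comap lam := by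
    unfold MR.congIdeal
    rw [Ideal.span_le]
    rintro x (hx | ⟨ℓ, hℓ, hℓN, hg, rfl⟩)
    · rw [Set.mem_singleton_iff] at hx
      rw [hx, SetLike.mem_coe, Ideal.mem_comap, map_natCast]
      exact hp
    · obtain ⟨b, hb, hbm⟩ := hcong ℓ hℓ hℓN hg
      have hbl : lam (CuspForm.heckeAlgebra.T hℓ hℓN (Set.notMem_empty ℓ)) = b :=
        Subtype.ext ((hlam ℓ hℓ hℓN (Set.notMem_empty ℓ)).trans hb.symm)
      rw [SetLike.mem_coe, Ideal.mem_comap, map_sub, map_intCast, hbl]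
      exact hbm
  rw [htop, top_le_iff, Ideal.comap_eq_top_iff] at hle
  exact hmax.ne_top hle

end Fermat.Agent.MR.VS
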