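import Fermat.Agent.MR.VS.Interface
import Fermat.Agent.S27.Assembly2
import Fermat.Agent.S27.L4b
import Fermat.Agent.S36.Base.HDIV

/-!
# MR / VS : (DIV-LIFT) `p : Pic⁰[p^(k+1)] → Pic⁰[p^k]` is onto, in function language (helper9)
-/

set_option autoImplicit false
set_option linter.unusedSectionVars false

namespace Fermat.Agent.MR.VS

open AlgebraicCurve
open Fermat.Agent.S24 (Qbar FF)
open Fermat.Agent.ES.Mid

section Gen

variable {K F : Type} [Field K] [Field F] [Algebra K F] [IsAlgClosed K] [CharZero K]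

theorem DivLift_ord_pow (v : Place K F) (f : F) (n : ℕ) : v.ord (f ^ n) = n * v.ord f := by
  rw [← zpow_natCast, Place.ord_zpow]

/-- a function without zeros and poles is a constant -/
theorem DivLift_const (h : S27.IsFF K F) (c : F) (hc : ∀ v : Place K F, v.ord c = 0) :
    ∃ a : K, c = algebraMap K F a := by
  rcases S27.R0.const_or_transcendental (K := K) c with ha | ht
  · exact ha
  · obtain ⟨v, hv⟩ := S27.R0.exists_zero h c ht
    rw [hc v] at hv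
    exact absurd hv (lt_irrefl 0)

/-- a class `mk D` vanishes iff `D` is principal -/
theorem DivLift_mk_eq_zero (D : Divisor.degZero (K := K) (F := F)) :
    Pic0.mk D = 0 ↔ ∃ f : F, f ≠ 0 ∧ ∀ v : Place K F, (D : Divisor K F) v = v.ord f := by
  unfold Pic0.mk
  rw [QuotientAddGroup.eq_zero_iff, AddSubgroup.mem_addSubgroupOf]
  rfl

theorem DivLift_nsmul_mk (n : ℕ) (D : Divisor.degZero (K := K) (F := F)) :
    n • Pic0.mk D = Pic0.mk (n • D) := rfl

theorem DivLift_card (hM : ∀ n : ℕ, 0 < n → Nat.card (Pic0.torsion K F n) = n ^ (2 * genusFF K F))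
    {p : ℕ} (hp : p.Prime) (k : ℕ) :
    Nat.card {x : Pic0 K F // p ^ k • x = 0} = p ^ (2 * genusFF K F * k) := by
  have h1 : Nat.card {x : Pic0 K F // p ^ k • x = 0} = Nat.card (Pic0.torsion K F (p ^ k)) := by
    refine Nat.card_congr (Equiv.subtypeEquivRight fun x => ?_)
    rw [Pic0.mem_torsion, natCast_zsmul]
  rw [h1, hM _ (pow_pos hp.pos k), ← pow_mul, mul_comm]

theorem DivLift_gen (h : S27.IsFF K F) (hT : Stmt_TorsSurj)
    (hM : ∀ n : ℕ, 0 < n → Nat.card (Pic0.torsion K F n) = n ^ (2 * genusFF K F))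
    (p : ℕ) (hp : p.Prime) (k : ℕ) (u : F) (hu : u ≠ 0)
    (hdiv : ∀ P : Place K F, ((p ^ k : ℕ) : ℤ) ∣ P.ord u) :
    ∃ u' g : F, (u' ≠ 0 ∧ ∀ P : Place K F, ((p ^ (k + 1) : ℕ) : ℤ) ∣ P.ord u') ∧ g ≠ 0 ∧
      u = u' * g ^ (p ^ k) := by
  have hpk : ((p ^ k : ℕ) : ℤ) ≠ 0 := by exact_mod_cast pow_ne_zero k hp.ne_zero
  obtain ⟨E, hE, hE0⟩ := (S27.R0.hasPrincipalDivisors h).exists_divisor u hu
  -- `D = E / p^k`
  let D : Divisor K F := E.mapRange (fun n : ℤ => n / ((p ^ k : ℕ) : ℤ)) (Int.zero_ediv _)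
  have hDv : ∀ v, ((p ^ k : ℕ) : ℤ) * D v = v.ord u := by
    intro v
    show ((p ^ k : ℕ) : ℤ) * (E v / ((p ^ k : ℕ) : ℤ)) = v.ord u
    rw [hE v]
    exact Int.mul_ediv_cancel' (hdiv v)
  have hDE : (p ^ k) • D = E := by
    ext v
    rw [Finsupp.smul_apply, hE v, ← hDv v, nsmul_eq_mul]
  have hD0 : D ∈ Divisor.degZero (K := K) (F := F) := by
    rw [Divisor.mem_degZero]
    have h1 : (p ^ k) • Divisor.degree D = 0 := by rw [← map_nsmul, hDE, hE0]
    rw [nsmul_eq_mul] at h1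
    exact (mul_eq_zero.1 h1).resolve_left hpk
  have hx : p ^ k • Pic0.mk (⟨D, hD0⟩ : Divisor.degZero (K := K) (F := F)) = 0 := by
    rw [DivLift_nsmul_mk, DivLift_mk_eq_zero]
    refine ⟨u, hu, fun v => ?_⟩
    show ((p ^ k) • D) v = v.ord u
    rw [hDE, hE v]
  obtain ⟨y, hy1, hy2⟩ := hT (Pic0 K F) p (2 * genusFF K F) hp (fun k => DivLift_card hM hp k) k _ hx
  obtain ⟨D', rfl⟩ := Pic0.mk_surjective y
  rw [DivLift_nsmul_mk, DivLift_mk_eq_zero] at hy1
  obtain ⟨u', hu', hu'v⟩ := hy1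
  have hy3 : Pic0.mk ((⟨D, hD0⟩ : Divisor.degZero (K := K) (F := F)) - p • D') = 0 := by
    have : Pic0.mk ((⟨D, hD0⟩ : Divisor.degZero (K := K) (F := F)) - p • D')
        = Pic0.mk (⟨D, hD0⟩ : Divisor.degZero (K := K) (F := F)) - p • Pic0.mk D' := rfl
    rw [this, hy2, sub_self]
  rw [DivLift_mk_eq_zero] at hy3
  obtain ⟨g, hg, hgv⟩ := hy3
  have hu'v' : ∀ v : Place K F, ((p ^ (k + 1) : ℕ) : ℤ) * (D' : Divisor K F) v = v.ord u' := by
    intro v
    rw [← hu'v v]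
    show _ = ((p ^ (k + 1)) • (D' : Divisor K F)) v
    rw [Finsupp.smul_apply, nsmul_eq_mul]
  have hgv' : ∀ v : Place K F, D v - (p : ℤ) * (D' : Divisor K F) v = v.ord g := by
    intro v
    rw [← hgv v]
    show _ = (D - p • (D' : Divisor K F)) v
    rw [Finsupp.sub_apply, Finsupp.smul_apply, nsmul_eq_mul]
  have hgk : g ^ (p ^ k) ≠ 0 := pow_ne_zero _ hg
  -- the quotient is a constant
  obtain ⟨a, ha⟩ := DivLift_const h (u * (u' * g ^ (p ^ k))⁻¹) (fun v => by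
    rw [Place.ord_mul v hu (inv_ne_zero (mul_ne_zero hu' hgk)), Place.ord_inv,
      Place.ord_mul v hu' hgk, DivLift_ord_pow, ← hDv v, ← hu'v' v, ← hgv' v]
    push_cast
    ring)
  have ha0 : a ≠ 0 := by
    rintro rfl
    rw [map_zero] at ha
    exact mul_ne_zero hu (inv_ne_zero (mul_ne_zero hu' hgk)) ha
  obtain ⟨c, hc⟩ := IsAlgClosed.exists_pow_nat_eq a (pow_pos hp.pos k)
  have hc0 : c ≠ 0 := by
    rintro rfl
    rw [zero_pow (pow_ne_zero k hp.ne_zero)] at hc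
    exact ha0 hc.symm
  refine ⟨u', g * algebraMap K F c, ⟨hu', fun P => ⟨(D' : Divisor K F) P, (hu'v' P).symm⟩⟩,
    mul_ne_zero hg ((map_ne_zero _).2 hc0), ?_⟩
  rw [mul_pow, ← map_pow, hc, ← ha]
  field_simp

end Gen

theorem stmt_DivLift (hT : Stmt_TorsSurj) : Stmt_DivLift := by
  intro N _ p hp k u hu
  obtain ⟨u', g, h1, h2, h3⟩ := DivLift_gen (K := Qbar) (F := FF N) (S36.Base.HDIV_isFF N) hT
    (fun n hn => S27.main_of_l4b (S27.l4b (S27.l4a S27.r0)) (S27.l4b (S27.l4a S27.r0)) Qbar (FF N)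
      (S36.Base.HDIV_isFF N) n hn) p hp k u hu.1 hu.2
  exact ⟨u', g, h1, h2, h3⟩

end Fermat.Agent.MR.VS
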