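import Fermat.Agent.MR.VS.Interface

/-!
# MR / VS : `congIdeal ≠ ⊤` iff there is a nonzero `PE` eigencharacter
(`Stmt_EigChar`, `Stmt_NoEigChar`)
-/

set_option autoImplicit false

namespace Fermat.Agent.MR.VS

open CongruenceSubgroup
open Fermat.Agent.ES.Mid

/-! ## abstract part -/

/-- abstract form of `EigChar`: a proper ideal containing `p` has a nonzero "socle" vector in
`H / p H`. -/
theorem EigChar_abs (hS : Stmt_Socle) {R H : Type} [CommRing R] [AddCommGroup H]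
    [Module.Finite ℤ H] (Θ : R →+* Module.End ℤ H) (hΘ : Function.Injective Θ) (p : ℕ)
    (hp : p ≠ 0) (I : Ideal R) (hpI : (p : R) ∈ I) (hI : I ≠ ⊤) :
    ∃ h : H, (¬ ∃ h' : H, h = p • h') ∧ ∀ r ∈ I, ∃ h' : H, Θ r h = p • h' := by
  let _ : Module R H := Module.compHom H Θ
  have hsmul : ∀ (x : R) (h : H), x • h = Θ x h := fun _ _ => rfl
  have hpsmul : ∀ h : H, (p : R) • h = p • h := by
    intro h
    rw [hsmul, map_natCast, Module.End.natCast_apply]
  have : Module.Finite R H := Module.Finite.of_restrictScalars_finite ℤ R H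
  have hne : I • (⊤ : Submodule R H) ≠ ⊤ := by
    intro htop
    obtain ⟨r, hr1, hr0⟩ := Submodule.exists_sub_one_mem_and_smul_eq_zero_of_fg_of_le_smul I
      (⊤ : Submodule R H) Module.Finite.fg_top (le_of_eq htop.symm)
    have hr : r = 0 := by
      apply hΘ
      rw [map_zero]
      ext h
      exact hr0 h Submodule.mem_top
    rw [hr, zero_sub] at hr1
    exact hI ((Ideal.eq_top_iff_one _).mpr (by simpa using I.neg_mem hr1))
  set pH : Submodule R H := LinearMap.range (LinearMap.lsmul R H (p : R)) with hpH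
  have hmem : ∀ h : H, h ∈ pH ↔ ∃ h' : H, h = p • h' := by
    intro h
    rw [hpH, LinearMap.mem_range]
    constructor
    · rintro ⟨y, hy⟩
      exact ⟨y, by rw [← hy, LinearMap.lsmul_apply, hpsmul]⟩
    · rintro ⟨y, hy⟩
      exact ⟨y, by rw [hy, LinearMap.lsmul_apply, hpsmul]⟩
  have hfinZ : Module.Finite ℤ (H ⧸ pH) :=
    Module.Finite.of_surjective (Submodule.mkQ pH).toAddMonoidHom.toIntLinearMap
      (Submodule.mkQ_surjective pH)
  have hfin : Finite (H ⧸ pH) := by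
    apply Module.finite_of_fg_torsion
    intro x
    obtain ⟨h, rfl⟩ := Submodule.Quotient.mk_surjective _ x
    refine ⟨⟨(p : ℤ), mem_nonZeroDivisors_of_ne_zero (by exact_mod_cast hp)⟩, ?_⟩
    show (p : ℤ) • (Submodule.Quotient.mk h : H ⧸ pH) = 0
    rw [natCast_zsmul, ← Submodule.Quotient.mk_smul, Submodule.Quotient.mk_eq_zero, hmem]
    exact ⟨h, rfl⟩
  have hneM : I • (⊤ : Submodule R (H ⧸ pH)) ≠ ⊤ := by
    intro htop
    apply hne
    rw [eq_top_iff]
    intro h _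
    have h1 : (Submodule.mkQ pH h) ∈ (I • (⊤ : Submodule R H)).map (Submodule.mkQ pH) := by
      rw [Submodule.map_smul'', Submodule.map_top, Submodule.range_mkQ, htop]
      exact Submodule.mem_top
    obtain ⟨h₁, hh₁, he⟩ := h1
    have h2 : h - h₁ ∈ pH := by
      rw [← Submodule.Quotient.mk_eq_zero, Submodule.Quotient.mk_sub, sub_eq_zero]
      exact he.symm
    obtain ⟨y, hy⟩ := (hmem _).mp h2
    have h3 : h - h₁ ∈ I • (⊤ : Submodule R H) := by
      rw [hy, ← hpsmul]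
      exact Submodule.smul_mem_smul hpI Submodule.mem_top
    have := Submodule.add_mem _ h3 hh₁
    simpa using this
  obtain ⟨x, hx0, hx⟩ := hS R (H ⧸ pH) I hneM
  obtain ⟨h, rfl⟩ := Submodule.Quotient.mk_surjective _ x
  refine ⟨h, ?_, ?_⟩
  · rw [← hmem]
    intro hh
    exact hx0 ((Submodule.Quotient.mk_eq_zero _).mpr hh)
  · intro r hr
    have := hx r hr
    rw [← Submodule.Quotient.mk_smul, Submodule.Quotient.mk_eq_zero, hmem] at this
    exact this

/-- the ideal of the `r` with `r h ∈ p H`. -/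
def EigChar_colon {R H : Type} [CommRing R] [AddCommGroup H] (Θ : R →+* Module.End ℤ H) (p : ℕ)
    (h : H) : Ideal R where
  carrier := {r | ∃ h' : H, Θ r h = p • h'}
  add_mem' := by
    rintro r s ⟨x, hx⟩ ⟨y, hy⟩
    exact ⟨x + y, by rw [map_add, LinearMap.add_apply, hx, hy, smul_add]⟩
  zero_mem' := ⟨0, by rw [map_zero, LinearMap.zero_apply, smul_zero]⟩
  smul_mem' := by
    rintro c r ⟨x, hx⟩
    exact ⟨Θ c x, by rw [smul_eq_mul, map_mul, Module.End.mul_apply, hx, map_nsmul]⟩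

theorem EigChar_mem_colon {R H : Type} [CommRing R] [AddCommGroup H] (Θ : R →+* Module.End ℤ H)
    (p : ℕ) (h : H) (r : R) : r ∈ EigChar_colon Θ p h ↔ ∃ h' : H, Θ r h = p • h' := Iff.rfl

/-! ## reduction modulo `p` -/

/-- the reduction `H → Hom(Γ₀(N), ℤ/p)`. -/
noncomputable def EigChar_red (N : ℕ) [NeZero N] (p : ℕ) :
    ES.Coh.H N →+ (Additive (Gamma0 N) →+ ZMod p) where
  toFun φ := (Int.castAddHom (ZMod p)).comp φ.1
  map_zero' := by ext; simp
  map_add' φ ψ := by ext; simp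

theorem EigChar_red_apply (N : ℕ) [NeZero N] (p : ℕ) (φ : ES.Coh.H N) :
    EigChar_red N p φ = (Int.castAddHom (ZMod p)).comp φ.1 := rfl

theorem EigChar_p_smul (N p : ℕ) (χ : Additive (Gamma0 N) →+ ZMod p) : p • χ = 0 := by
  ext γ
  simp

theorem EigChar_Theta (N : ℕ) [NeZero N] (a : ℕ → ℤ) (ℓ : Nat.Primes) (hℓN : ¬ (ℓ : ℕ) ∣ N)
    (h : ES.Coh.H N) :
    ES.Coh.Theta0 N ∅ (CuspForm.heckeAlgebra.T ℓ.2 hℓN (Set.notMem_empty (ℓ : ℕ))
      - ((a ℓ : ℤ) : CuspForm.heckeAlgebra N 2 ∅)) h = ES.Coh.tauH N ℓ h - a ℓ • h := by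
  rw [map_sub, ES.Coh.Theta0_T, map_intCast, LinearMap.sub_apply, Module.End.intCast_apply]
  rfl

/-! ## the statements -/

theorem stmt_EigChar (hS : Stmt_Socle) (hR : Stmt_RedH) : Stmt_EigChar := by
  intro N _ p _ hp a Good hI
  obtain ⟨h, hh, hk⟩ := EigChar_abs hS (ES.Coh.Theta0 N ∅) (ES.Coh.Theta0_injective N ∅) p
    hp.ne_zero (MR.congIdeal N p a Good) (MR.natCast_mem_congIdeal N p a Good) hI
  refine ⟨(Int.castAddHom (ZMod p)).comp h.1, ?_, (hR N p hp h).1, ?_⟩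
  · intro h0
    exact hh ((hR N p hp h).2.1 h0)
  · intro ℓ hℓN hg
    obtain ⟨h', hh'⟩ := hk _ (MR.T_sub_mem_congIdeal' N p a Good ℓ.2 hℓN hg)
    rw [EigChar_Theta] at hh'
    have := congrArg (EigChar_red N p) hh'
    rw [map_sub, map_zsmul, map_nsmul, EigChar_p_smul, sub_eq_zero] at this
    rw [← (hR N p hp h).2.2 ℓ]
    exact this

theorem stmt_NoEigChar (hL : Stmt_PELift) (hR : Stmt_RedH) : Stmt_NoEigChar := by
  intro N _ p _ hp a Good hI χ hPE hE
  obtain ⟨h, rfl⟩ := hL N p hp χ hPE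
  have hle : MR.congIdeal N p a Good ≤ EigChar_colon (ES.Coh.Theta0 N ∅) p h := by
    unfold MR.congIdeal
    rw [Ideal.span_le]
    rintro x (hx | ⟨ℓ, hℓ, hℓN, hg, rfl⟩)
    · rw [Set.mem_singleton_iff] at hx
      subst hx
      exact ⟨h, by rw [map_natCast, Module.End.natCast_apply]⟩
    · show _ ∈ EigChar_colon (ES.Coh.Theta0 N ∅) p h
      rw [EigChar_mem_colon]
      have h1 := EigChar_Theta N a ⟨ℓ, hℓ⟩ hℓN h
      rw [h1]
      apply (hR N p hp _).2.1
      have h2 := hE ⟨ℓ, hℓ⟩ hℓN hg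
      rw [← (hR N p hp h).2.2 ⟨ℓ, hℓ⟩] at h2
      show EigChar_red N p (ES.Coh.tauH N ⟨ℓ, hℓ⟩ h - a ℓ • h) = 0
      rw [map_sub, map_zsmul, sub_eq_zero]
      exact h2
  rw [hI] at hle
  obtain ⟨h', hh'⟩ := hle (Submodule.mem_top (x := (1 : CuspForm.heckeAlgebra N 2 ∅)))
  rw [map_one, Module.End.one_apply] at hh'
  show EigChar_red N p h = 0
  rw [hh', map_nsmul, EigChar_p_smul]

end Fermat.Agent.MR.VS
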