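import Fermat.Agent.MR.VS.Interface
import Fermat.Agent.ES.All
import Fermat.Agent.ES.Mid.All

/-!
# MR / VS : (EIG-DICT) eigenclasses of functions <-> eigencharacters; `Stmt_NoEig`, `Stmt_EigFun`
-/

set_option autoImplicit false

namespace Fermat.Agent.MR.VS

open CongruenceSubgroup
open Fermat.Agent.S24 (Qbar FF)
open Fermat.Agent.ES.Mid

/-- `Kum` for integer powers. -/
theorem EigDict_kum_zpow {N m : ℕ} [NeZero N] [NeZero m] {χ : Additive (Gamma0 N) →+ ZMod m}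
    {u : FF N} (hu : Kum N m u χ) (n : ℤ) : Kum N m (u ^ n) (n • χ) := by
  cases n with
  | ofNat n =>
    have := GLUE.kum_pow kumMul kumPow hu n
    simpa using this
  | negSucc n =>
    rw [zpow_negSucc, negSucc_zsmul]
    exact kumInv _ _ _ _ (GLUE.kum_pow kumMul kumPow hu (n + 1))

/-- `N_ℓ` preserves `F_N` (unconditional). -/
theorem EigDict_mem (N : ℕ) [NeZero N] {ℓ : ℕ} [NeZero ℓ] (hℓ : ℓ.Prime) (hℓN : ¬ ℓ ∣ N)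
    (ζ : Qbarˣ) (hζ : IsPrimitiveRoot ζ ℓ) (u : FF N) :
    formalN ℓ ζ (u : LaurentSeries Qbar) ∈ ModularCurve.modularFunctionFieldBar N :=
  HG.formalN_mem INV.invRat ha_char ha_mdiff HA2.stmt_HA_rep HA3.ha_growth HF1.hf_mul N hℓ hℓN ζ hζ u

/-- the Kummer character of `N_ℓ u` (unconditional). -/
theorem EigDict_kum_mkN (N : ℕ) [NeZero N] {ℓ : ℕ} [NeZero ℓ] (hℓ : ℓ.Prime) (hℓN : ¬ ℓ ∣ N)
    (ζ : Qbarˣ) (hζ : IsPrimitiveRoot ζ ℓ) (m : ℕ) [NeZero m] (u : FF N)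
    (χ : Additive (Gamma0 N) →+ ZMod m) (h : Kum N m u χ) :
    Kum N m (HG.mkN (EigDict_mem N hℓ hℓN ζ hζ) u) (tau N ⟨ℓ, hℓ⟩ (ZMod m) χ) :=
  HG.kum_mkN INV.invRat ha_char ha_mdiff HA2.stmt_HA_rep HA3.ha_growth HF1.hf_mul N hℓ hℓN ζ hζ
    (EigDict_mem N hℓ hℓN ζ hζ) m u χ h

/-- **(EIG-DICT)** -/
theorem stmt_EigDict : Stmt_EigDict := by
  intro N _ p _ hp a Good u χ hK hPE
  have hdiv : IsDiv N p u := ALL.divOfKum N p u χ hK hPE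
  have hu0 : u ≠ 0 := hdiv.1
  constructor
  · rintro ⟨-, h⟩ ℓ hℓN hg
    have hℓ : (ℓ : ℕ).Prime := ℓ.2
    have : NeZero (ℓ : ℕ) := ⟨hℓ.ne_zero⟩
    obtain ⟨ζ₀, hζ₀⟩ := HasEnoughRootsOfUnity.exists_primitiveRoot Qbar (ℓ : ℕ)
    obtain ⟨ζ, rfl⟩ := hζ₀.isUnit (NeZero.ne _)
    have hζ : IsPrimitiveRoot ζ (ℓ : ℕ) := IsPrimitiveRoot.coe_units_iff.mp hζ₀
    obtain ⟨f, hf⟩ := h (ℓ : ℕ) hℓ hℓN hg ζ hζ
    have hv : HG.mkN (EigDict_mem N hℓ hℓN ζ hζ) u = u ^ (a ℓ) * f ^ p := Subtype.ext hf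
    have hv0 : HG.mkN (EigDict_mem N hℓ hℓN ζ hζ) u ≠ 0 :=
      HG.mkN_ne_zero _ HF1.hf_mul hζ hu0
    have hf0 : f ≠ 0 := by
      rintro rfl
      rw [zero_pow (NeZero.ne p), mul_zero] at hv
      exact hv0 hv
    have h1 := EigDict_kum_mkN N hℓ hℓN ζ hζ p u χ hK
    rw [hv] at h1
    have h2 : Kum N p (u ^ (a ℓ) * f ^ p) (a ℓ • χ + 0) :=
      kumMul N p _ _ _ _ (EigDict_kum_zpow hK (a ℓ)) (kumPow N p f hf0)
    rw [add_zero] at h2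
    exact kumUnique N p _ _ _ h1 h2
  · intro h
    refine ⟨hdiv, ?_⟩
    intro ℓ _ hℓ hℓN hg ζ hζ
    have h1 := EigDict_kum_mkN N hℓ hℓN ζ hζ p u χ hK
    rw [h ⟨ℓ, hℓ⟩ hℓN hg] at h1
    have h2 : Kum N p (HG.mkN (EigDict_mem N hℓ hℓN ζ hζ) u * (u ^ (a ℓ))⁻¹)
        (a ℓ • χ + -(a ℓ • χ)) :=
      kumMul N p _ _ _ _ h1 (kumInv N p _ _ (EigDict_kum_zpow hK (a ℓ)))
    rw [add_neg_cancel] at h2
    obtain ⟨f, hf⟩ := ALL.kumKer N p _ h2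
    refine ⟨f, ?_⟩
    have h3 : HG.mkN (EigDict_mem N hℓ hℓN ζ hζ) u = u ^ (a ℓ) * f ^ p := by
      rw [hf, mul_comm, inv_mul_cancel_right₀ (zpow_ne_zero _ hu0)]
    exact congrArg Subtype.val h3

/-- **(NO-EIG)** -/
theorem stmt_NoEig (hD : Stmt_EigDict) (hN : Stmt_NoEigChar) : Stmt_NoEig := by
  intro N _ p _ hp a Good htop u hu
  obtain ⟨χ, hPE, hK⟩ := ALL.kumOfDiv N p u hu.1
  have h1 := (hD N p hp a Good u χ hK hPE).1 hu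
  have h2 := hN N p hp a Good htop χ hPE h1
  rw [h2] at hK
  obtain ⟨f, hf⟩ := ALL.kumKer N p u hK
  exact ⟨f, hf.symm⟩

/-- **(EIG-FUN)** -/
theorem stmt_EigFun (hD : Stmt_EigDict) (hE : Stmt_EigChar) : Stmt_EigFun := by
  intro N _ p _ hp a Good htop
  obtain ⟨χ, hχ, hPE, heig⟩ := hE N p hp a Good htop
  obtain ⟨u, hK⟩ := ALL.kumSurj N p χ hPE
  have hu := (hD N p hp a Good u χ hK hPE).2 heig
  refine ⟨u, hu, ?_⟩
  rintro ⟨f, hf⟩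
  apply hχ
  exact kumUnique N p u _ _ hK (GLUE.kum_zero_of_pow kumPow hu.1.1 hf.symm)

end Fermat.Agent.MR.VS
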