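import Fermat.Agent.MR.VS.Interface
import Fermat.Agent.ES.All
import Fermat.Agent.ES.Mid.All
import Fermat.Agent.ES.ClaimKFull

/-!
# MR / VS, task VS-LEVFROB (helper46): finite level and the Eichler-Shimura relation in function
language (`Stmt_LevelFF`, `Stmt_FrobFF`, `Stmt_EigFrob`).
-/

set_option autoImplicit false

namespace Fermat.Agent.MR.VS

open CongruenceSubgroup
open Fermat.Agent.S24 (Qbar FF)
open Fermat.Agent.ES.Mid
open Fermat.Agent.ES.Mid.GLUE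

theorem LEVFROB_isDiv_pow {N m : ℕ} {u : FF N} (hu : IsDiv N m u) (n : ℕ) : IsDiv N m (u ^ n) := by
  induction n with
  | zero =>
    rw [pow_zero]
    have := isDiv_mul hu (isDiv_inv hu)
    rwa [mul_inv_cancel₀ hu.1] at this
  | succ n ih =>
    rw [pow_succ]
    exact isDiv_mul ih hu

/-- (LEVEL-FF) the classes have finite level. -/
theorem stmt_LevelFF : Stmt_LevelFF := by
  intro N _ m _
  have hfin : Finite (Additive (Gamma0 N) →+ ZMod m) := LM.homFinite N m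
  have hex : ∀ χ : Additive (Gamma0 N) →+ ZMod m, ∃ L : IntermediateField ℚ Qbar,
      FiniteDimensional ℚ L ∧ (IsPE χ → ∃ u₀ : FF N, Kum N m u₀ χ ∧
        ∀ σ : GQ, (∀ x ∈ L, σ x = x) → gal N σ u₀ = u₀) := by
    intro χ
    by_cases hχ : IsPE χ
    · obtain ⟨u, hu⟩ := ALL.kumSurj N m χ hχ
      obtain ⟨L, hL1, hL2⟩ := LM.fixedOpen N u
      exact ⟨L, hL1, fun _ => ⟨u, hu, hL2⟩⟩
    · exact ⟨⊥, inferInstance, fun h => absurd h hχ⟩
  choose L hL1 hL2 using hex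
  refine ⟨⨆ χ, L χ, ?_, ?_⟩
  · have := hL1
    exact IntermediateField.finiteDimensional_iSup_of_finite
  · intro σ hσ u hu
    obtain ⟨χ, hχ, hk⟩ := ALL.kumOfDiv N m u hu
    obtain ⟨u₀, hk₀, hfix⟩ := hL2 χ hχ
    have hfix' := hfix σ (fun x hx => hσ x ((le_iSup L χ) hx))
    have h0 : Kum N m (u * u₀⁻¹) 0 := by
      have := kumMul N m _ _ _ _ hk (kumInv N m _ _ hk₀)
      rwa [add_neg_cancel] at this
    obtain ⟨g, hg⟩ := ALL.kumKer N m _ h0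
    have hu₀ : u₀ ≠ 0 := (ALL.divOfKum N m u₀ χ hk₀ hχ).1
    have hg0 : g ≠ 0 := by
      rintro rfl
      rw [zero_pow (NeZero.ne m)] at hg
      exact mul_ne_zero hu.1 (inv_ne_zero hu₀) hg.symm
    have hu' : u = u₀ * g ^ m := by
      rw [hg]
      field_simp
    refine ⟨gal N σ g / g, ?_⟩
    have h1 : gal N σ u = u₀ * gal N σ g ^ m := by
      rw [hu', map_mul, map_pow, hfix']
    rw [h1, div_pow, hu']
    field_simp

/-- (FROB-FF) the Eichler-Shimura relation in function language. -/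
theorem stmt_FrobFF : Stmt_FrobFF := by
  intro N _ m _ ℓ _ hℓ hℓN hℓm A hA σ hσ ζ hζ u hu
  have hmem := HG.formalN_mem INV.invRat ha_char ha_mdiff HA2.stmt_HA_rep HA3.ha_growth HF1.hf_mul
    N hℓ hℓN ζ hζ
  have hcong := HGF.cong_mkN' INT.intRep' (HF3.hf_cong HF1.hf_map HF2.hf_char) HF1.hf_mul N hℓ ζ hζ
    hmem A hA σ hσ u hu.1
  have hd1 : IsDiv N m (gal N σ u) := isDiv_gal hu σ
  obtain ⟨χ, hχ, hk⟩ := ALL.kumOfDiv N m _ hd1
  have hkv := HG.kum_mkN INV.invRat ha_char ha_mdiff HA2.stmt_HA_rep HA3.ha_growth HF1.hf_mul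
    N hℓ hℓN ζ hζ hmem m _ χ hk
  have hdv : IsDiv N m (HG.mkN hmem (gal N σ u)) :=
    ALL.divOfKum N m _ _ hkv (TP.tauPE N ⟨ℓ, hℓ⟩ _ χ hχ)
  have hdy : IsDiv N m (gal N σ (gal N σ u) * u ^ ℓ * (HG.mkN hmem (gal N σ u))⁻¹) :=
    isDiv_mul (isDiv_mul (isDiv_gal hd1 σ) (LEVFROB_isDiv_pow hu ℓ)) (isDiv_inv hdv)
  obtain ⟨g, hg⟩ := claimK_of ES.ClaimKFull.claimK N ℓ hℓ hℓN A hA m hℓm _ hcong hdy
  refine ⟨g, ?_⟩
  have hv0 := hdv.1
  have key : gal N σ (gal N σ u) * u ^ ℓ = HG.mkN hmem (gal N σ u) * g ^ m := by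
    rw [hg]
    field_simp
  exact congrArg Subtype.val key

/-- (EIG-FROB). -/
theorem stmt_EigFrob (hF : Stmt_FrobFF) (hG : Stmt_EigGroup) : Stmt_EigFrob := by
  intro N _ p _ hp a Good ℓ hℓ hℓN hℓp hGood A hA σ hσ u hu
  have : NeZero ℓ := ⟨hℓ.ne_zero⟩
  obtain ⟨ζ₀, hζ₀⟩ := HasEnoughRootsOfUnity.exists_primitiveRoot Qbar ℓ
  obtain ⟨ζ, rfl⟩ := hζ₀.isUnit (NeZero.ne _)
  have hζ : IsPrimitiveRoot ζ ℓ := IsPrimitiveRoot.coe_units_iff.mp hζ₀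
  have hℓp' : ¬ ℓ ∣ p := fun h => hℓp ((Nat.prime_dvd_prime_iff_eq hℓ hp).1 h)
  obtain ⟨f, hf⟩ := hF N p ℓ hℓ hℓN hℓp' A hA σ hσ ζ hζ u hu.1
  have hgu := (hG N p hp a Good).2 σ u hu
  obtain ⟨f', hf'⟩ := hgu.2 ℓ hℓ hℓN hGood ζ hζ
  refine ⟨f' * f, ?_⟩
  apply Subtype.ext
  rw [hf, hf', mul_pow, ← mul_assoc]
  rfl

end Fermat.Agent.MR.VS
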