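/-
TEAM MR -> S44, block VS, package VS-PELIFT (helper2):
every `PE` character `Γ₀(N) → ℤ/p` lifts to `H = Hom_par(Γ₀(N), ℤ)`.
-/
import Fermat.Agent.MR.VS.Interface
import Fermat.Agent.ES.Coh.Padic
import Fermat.Agent.ES.Coh.Lattice

set_option autoImplicit false

namespace Fermat.Agent.MR.VS

open CongruenceSubgroup ModularCurve.Period
open scoped MatrixGroups
open Fermat.Agent.ES.Mid

theorem PELift_red_red {N a b c : ℕ} (h1 : a ∣ b) (h2 : b ∣ c)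
    (χ : Additive (Gamma0 N) →+ ZMod c) :
    redChar h1 (redChar h2 χ) = redChar (h1.trans h2) χ := by
  ext γ
  exact RingHom.congr_fun (ZMod.castHom_comp h1 h2) (χ γ)

theorem PELift_red_self {N a : ℕ} (h : a ∣ a) (χ : Additive (Gamma0 N) →+ ZMod a) :
    redChar h χ = χ := by
  ext γ
  exact RingHom.congr_fun (ZMod.castHom_self (n := a)) (χ γ)

theorem PELift_red_pe {N a b : ℕ} (h : a ∣ b) {χ : Additive (Gamma0 N) →+ ZMod b}
    (hχ : IsPE χ) : IsPE (redChar h χ) := by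
  intro γ hγ
  show ZMod.castHom h (ZMod a) (χ (Additive.ofMul γ)) = 0
  rw [hχ γ hγ, map_zero]

theorem PELift_seq (hR : Stmt_RedSurj) (N : ℕ) [NeZero N] (p : ℕ) [NeZero p] (hp : p.Prime)
    (χ : Additive (Gamma0 N) →+ ZMod (p ^ 1)) (hχ : IsPE χ) :
    ∃ ψ : ∀ n : ℕ, Additive (Gamma0 N) →+ ZMod (p ^ n), (∀ n, IsPE (ψ n)) ∧ ψ 1 = χ ∧
      ∀ n, redChar (pow_dvd_pow p (Nat.le_succ n)) (ψ (n + 1)) = ψ n := by
  choose f hf1 hf2 using
    fun (k : ℕ) (x : {x : Additive (Gamma0 N) →+ ZMod (p ^ k) // IsPE x}) => hR N p hp k x.1 x.2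
  let s : ∀ n : ℕ, {x : Additive (Gamma0 N) →+ ZMod (p ^ (n + 1)) // IsPE x} := fun n =>
    Nat.rec (motive := fun n => {x : Additive (Gamma0 N) →+ ZMod (p ^ (n + 1)) // IsPE x})
      ⟨χ, hχ⟩ (fun n x => ⟨f (n + 1) x, hf1 (n + 1) x⟩) n
  have hs : ∀ n, redChar (pow_dvd_pow p (Nat.le_succ (n + 1))) (s (n + 1)).1 = (s n).1 :=
    fun n => hf2 (n + 1) (s n)
  refine ⟨fun n => redChar (pow_dvd_pow p (Nat.le_succ n)) (s n).1, fun n => ?_, hs 0, fun n => ?_⟩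
  · exact PELift_red_pe _ (s n).2
  · show redChar _ (redChar _ (s (n + 1)).1) = _
    rw [hs n]

theorem PELift_compat {N p : ℕ} (ψ : ∀ n : ℕ, Additive (Gamma0 N) →+ ZMod (p ^ n))
    (h : ∀ n, redChar (pow_dvd_pow p (Nat.le_succ n)) (ψ (n + 1)) = ψ n) (k1 k2 : ℕ)
    (hk : k1 ≤ k2) : redChar (pow_dvd_pow p hk) (ψ k2) = ψ k1 := by
  induction k2, hk using Nat.le_induction with
  | base => exact PELift_red_self _ _
  | succ k2 hk ih =>
    rw [← ih, ← h k2, PELift_red_red]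

/-- (PE-LIFT) -/
theorem stmt_PELift (hR : Stmt_RedSurj) : Stmt_PELift := by
  intro N _ p _ hp χ hχ
  have : Fact p.Prime := ⟨hp⟩
  have hd1 : p ^ 1 ∣ p := by rw [pow_one]
  have hd2 : p ∣ p ^ 1 := by rw [pow_one]
  have hχ1 : IsPE (redChar hd1 χ) := PELift_red_pe hd1 hχ
  obtain ⟨ψ, hψ1, hψ2, hψ3⟩ := PELift_seq hR N p hp (redChar hd1 χ) hχ1
  have hc := PELift_compat ψ hψ3
  let L : Additive (Gamma0 N) →+ ℤ_[p] :=
    ES.Coh.limHom p ψ (fun k1 k2 hk x => DFunLike.congr_fun (hc k1 k2 hk) x)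
  have hL : ∀ n, ES.Coh.redP p n L = ψ n := fun n => ES.Coh.redP_limHom p ψ _ n
  have hpar : IsParabolicHom (Gamma0 N) L := by
    intro γ hγ
    refine PadicInt.ext_of_toZModPow.mp fun n => ?_
    rw [map_zero, ← ES.Coh.redP_apply, hL]
    exact hψ1 n γ hγ.le
  obtain ⟨a, ha⟩ := ES.Coh.exists_mkHom_eq N L hpar
  let φ : ℤ_[p] →+* ZMod p := (ZMod.castHom hd2 (ZMod p)).comp (PadicInt.toZModPow 1)
  have hφ : φ.toAddMonoidHom.comp L = χ := by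
    have h1 : φ.toAddMonoidHom.comp L = redChar hd2 (ES.Coh.redP p 1 L) := rfl
    rw [h1, hL, hψ2, PELift_red_red, PELift_red_self]
  refine ⟨⟨ES.Coh.mkHom N ℤ (fun i => ((φ (a i)).val : ℤ)), ES.Coh.mkHom_parabolic N _⟩, ?_⟩
  show (Int.castAddHom (ZMod p)).comp (ES.Coh.mkHom N ℤ (fun i => ((φ (a i)).val : ℤ))) = χ
  rw [ES.Coh.comp_mkHom, ← hφ, ← ha, ES.Coh.comp_mkHom]
  congr 1
  funext i
  simp

end Fermat.Agent.MR.VS
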