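import Fermat.Agent.MR.VS.Interface
import Fermat.Agent.ES.Coh.PE

/-!
# MR / VS, task VS-REDH (helper40; architect helper90)

`stmt_RedH : Stmt_RedH` : the reduction `H = Hom_par(Γ₀(N), ℤ) → Hom(Γ₀(N), ℤ/p)` takes values in the
`PE` characters, has kernel `p H` and commutes with the Hecke operators.
-/

set_option autoImplicit false

namespace Fermat.Agent.MR.VS

open CongruenceSubgroup ModularCurve.Period
open Fermat.Agent.ES.Mid

/-- **(RED-H)**. -/
theorem stmt_RedH : Stmt_RedH := by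
  intro N _ p _ _ h
  refine ⟨ES.Coh.IsPE.comp (ES.Coh.isPE_of_parabolic h.2) _, fun h0 => ?_, fun ℓ => ?_⟩
  · have hdvd : ∀ γ, (p : ℤ) ∣ h.1 γ := fun γ => by
      have h1 := DFunLike.congr_fun h0 γ
      exact (ZMod.intCast_zmod_eq_zero_iff_dvd _ _).mp h1
    let h' : Additive (Gamma0 N) →+ ℤ :=
      { toFun := fun γ => h.1 γ / p
        map_zero' := by simp
        map_add' := fun γ δ => by rw [map_add, Int.add_ediv_of_dvd_left (hdvd γ)] }
    have hpar : IsParabolicHom (Gamma0 N) h' := fun γ hγ => by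
      show h.1 _ / (p : ℤ) = 0
      rw [h.2 γ hγ, Int.zero_ediv]
    refine ⟨⟨h', hpar⟩, Subtype.ext (AddMonoidHom.ext fun γ => ?_)⟩
    show h.1 γ = p • (h.1 γ / (p : ℤ))
    rw [nsmul_eq_mul, Int.mul_ediv_cancel' (hdvd γ)]
  · rw [ES.Coh.tauH_coe, S16.HH.comp_tau]

end Fermat.Agent.MR.VS
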