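import Fermat.Agent.MR.VS.Interface
import Fermat.Agent.ES.Mid.All
import Fermat.Agent.ES.Mid.KumFormal

/-!
# MR / VS / VS-REDSURJ : reduction of `PE` characters `X_(p^(k+1)) → X_(p^k)` is onto
-/

set_option autoImplicit false

namespace Fermat.Agent.MR.VS

open CongruenceSubgroup
open Fermat.Agent.S24 (Qbar FF)
open Fermat.Agent.ES.Mid

/-- (RED-SURJ) -/
theorem stmt_RedSurj (hD : Stmt_DivLift) : Stmt_RedSurj := by
  intro N _ p _ hp k χ hχ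
  obtain ⟨u, hu⟩ := ALL.kumSurj N (p ^ k) χ hχ
  have hdiv : IsDiv N (p ^ k) u := ALL.divOfKum N (p ^ k) u χ hu hχ
  obtain ⟨u', g, hu', hg, rfl⟩ := hD N p hp k u hdiv
  obtain ⟨χ', hχ', hk'⟩ := ALL.kumOfDiv N (p ^ (k + 1)) u' hu'
  refine ⟨χ', hχ', ?_⟩
  have h1 := kumRed N (p ^ k) (p ^ (k + 1)) (pow_dvd_pow p (Nat.le_succ k)) u' χ' hk'
  have h2 := kumPow N (p ^ k) g hg
  have h3 := kumMul N (p ^ k) u' (g ^ (p ^ k)) _ _ h1 h2
  rw [add_zero] at h3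
  exact kumUnique N (p ^ k) _ _ _ h3 hu

end Fermat.Agent.MR.VS
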