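import Fermat.Agent.MR.VS.Interface

/-!
# MR / VS-SOCLE : a finite module `M` with `I M ≠ M` has a nonzero element killed by `I`

The chain `I ^ n M` stabilises at `M' = I M'`; Nakayama gives `r ≡ 1 mod I` killing `M'`; `r M ≠ 0`;
`I` acts nilpotently on `R r m₀ ≠ 0`, so the last nonzero `I ^ j (R r m₀)` is killed by `I`.
-/

set_option autoImplicit false

namespace Fermat.Agent.MR.VS

/-- **(SOCLE)** -/
theorem stmt_Socle : Stmt_Socle := by
  intro R M _ _ _ _ I hI
  -- the chain `I ^ n • ⊤` stabilises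
  obtain ⟨k, hk⟩ := IsArtinian.monotone_stabilizes (R := R) (M := M)
    ⟨fun n => OrderDual.toDual (I ^ n • (⊤ : Submodule R M)), fun a b hab =>
      OrderDual.toDual_le_toDual.2 (Submodule.smul_mono_left (Ideal.pow_le_pow_right hab))⟩
  have hk1 : I ^ k • (⊤ : Submodule R M) = I ^ (k + 1) • (⊤ : Submodule R M) :=
    OrderDual.toDual.injective (hk (k + 1) (Nat.le_succ k))
  have hM' : I ^ k • (⊤ : Submodule R M) ≤ I • (I ^ k • (⊤ : Submodule R M)) := by
    rw [← Submodule.mul_smul, ← pow_succ', ← hk1]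
  obtain ⟨r, hr1, hr2⟩ := Submodule.exists_sub_one_mem_and_smul_eq_zero_of_fg_of_le_smul I
    (I ^ k • (⊤ : Submodule R M)) (IsNoetherian.noetherian _) hM'
  -- `r` does not kill `M`
  have hex : ∃ m0 : M, r • m0 ≠ 0 := by
    by_contra hcon
    push Not at hcon
    apply hI
    rw [eq_top_iff]
    intro m _
    have e : m = (-(r - 1)) • m := by
      rw [neg_smul, sub_smul, hcon m, one_smul, zero_sub, neg_neg]
    rw [e]
    exact Submodule.smul_mem_smul (I.neg_mem hr1) Submodule.mem_top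
  obtain ⟨m0, hm0⟩ := hex
  have hPk : I ^ k • Submodule.span R {r • m0} = ⊥ := by
    rw [eq_bot_iff, Submodule.smul_le]
    intro s hs n hn
    obtain ⟨c, rfl⟩ := Submodule.mem_span_singleton.1 hn
    rw [Submodule.mem_bot]
    have e : s • c • r • m0 = r • (s • (c • m0)) := by
      simp only [smul_smul]
      congr 1
      ring
    rw [e]
    exact hr2 _ (Submodule.smul_mem_smul hs Submodule.mem_top)
  classical
  have hP : ∃ j, I ^ j • Submodule.span R {r • m0} = ⊥ := ⟨k, hPk⟩
  have hj0 : Nat.find hP ≠ 0 := by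
    intro h0
    have h1 := Nat.find_spec hP
    rw [h0, pow_zero, Ideal.one_eq_top, Submodule.top_smul, Submodule.span_singleton_eq_bot] at h1
    exact hm0 h1
  obtain ⟨j, hj⟩ := Nat.exists_eq_succ_of_ne_zero hj0
  have hjmin : I ^ j • Submodule.span R {r • m0} ≠ ⊥ :=
    Nat.find_min hP (by rw [hj]; exact Nat.lt_succ_self j)
  obtain ⟨x, hx, hx0⟩ := (Submodule.ne_bot_iff _).1 hjmin
  refine ⟨x, hx0, fun s hs => ?_⟩
  have h1 : s • x ∈ I • (I ^ j • Submodule.span R {r • m0}) := Submodule.smul_mem_smul hs hx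
  have h2 := Nat.find_spec hP
  rw [hj, Nat.succ_eq_add_one, pow_succ', Submodule.mul_smul] at h2
  rw [h2] at h1
  exact h1

end Fermat.Agent.MR.VS
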