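import Fermat.Agent.MR.VS.Interface

/-!
# MR / VS, task VS-TREL (helper8, task 1282): elementwise transfer, `V = Vs / B`.
-/

set_option autoImplicit false

namespace Fermat.Agent.MR.VS

section Abs

variable {U G : Type} [CommGroup U] [Group G] (act : G →* MulAut U) (Vs B : Subgroup U)

/-- the additive group `Vs / B`. -/
abbrev TREL_V : Type := Additive (Vs ⧸ B.subgroupOf Vs)

variable {Vs} in
/-- the class of `u ∈ Vs`. -/
def TREL_mk (u : U) (hu : u ∈ Vs) : TREL_V Vs B :=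
  Additive.ofMul (QuotientGroup.mk (⟨u, hu⟩ : Vs))

variable {Vs B}

theorem TREL_ind (x : TREL_V Vs B) : ∃ (u : U) (hu : u ∈ Vs), x = TREL_mk B u hu := by
  induction x using Additive.rec with
  | ofMul x =>
  obtain ⟨⟨u, hu⟩, rfl⟩ := QuotientGroup.mk_surjective x
  exact ⟨u, hu, rfl⟩

theorem TREL_mk_eq_zero {u : U} (hu : u ∈ Vs) : TREL_mk B u hu = 0 ↔ u ∈ B := by
  unfold TREL_mk
  rw [ofMul_eq_zero, QuotientGroup.eq_one_iff, Subgroup.mem_subgroupOf]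

theorem TREL_mk_add {u w : U} (hu : u ∈ Vs) (hw : w ∈ Vs) :
    TREL_mk B u hu + TREL_mk B w hw = TREL_mk B (u * w) (Vs.mul_mem hu hw) := rfl

theorem TREL_mk_sub {u w : U} (hu : u ∈ Vs) (hw : w ∈ Vs) :
    TREL_mk B u hu - TREL_mk B w hw = TREL_mk B (u / w) (Vs.div_mem hu hw) := rfl

theorem TREL_mk_nsmul {u : U} (hu : u ∈ Vs) (n : ℕ) :
    n • TREL_mk B u hu = TREL_mk B (u ^ n) (Vs.pow_mem hu n) := rfl

theorem TREL_mk_zsmul {u : U} (hu : u ∈ Vs) (n : ℤ) :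
    n • TREL_mk B u hu = TREL_mk B (u ^ n) (Vs.zpow_mem hu n) := rfl

theorem TREL_mk_eq_iff {u w : U} (hu : u ∈ Vs) (hw : w ∈ Vs) :
    TREL_mk B u hu = TREL_mk B w hw ↔ u / w ∈ B := by
  rw [← sub_eq_zero, TREL_mk_sub, TREL_mk_eq_zero]

variable (Vs B)

/-- the action on `Vs`. -/
def TREL_actV (hVs : ∀ σ, ∀ u ∈ Vs, act σ u ∈ Vs) (σ : G) : Vs →* Vs :=
  ((act σ).toMonoidHom.comp Vs.subtype).codRestrict Vs (fun u => hVs σ u u.2)

/-- the action on `Vs / B`. -/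
def TREL_actQ (hVs : ∀ σ, ∀ u ∈ Vs, act σ u ∈ Vs) (hB : ∀ σ, ∀ u ∈ B, act σ u ∈ B) (σ : G) :
    Vs ⧸ B.subgroupOf Vs →* Vs ⧸ B.subgroupOf Vs :=
  QuotientGroup.map _ _ (TREL_actV act Vs hVs σ) (fun u hu => hB σ u hu)

/-- the representation on `Vs / B`. -/
def TREL_rho (p : ℕ) [Module (ZMod p) (TREL_V Vs B)] (hVs : ∀ σ, ∀ u ∈ Vs, act σ u ∈ Vs)
    (hB : ∀ σ, ∀ u ∈ B, act σ u ∈ B) : G →* Module.End (ZMod p) (TREL_V Vs B) where
  toFun σ := (MonoidHom.toAdditive (TREL_actQ act Vs B hVs hB σ)).toZModLinearMap p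
  map_one' := by
    ext x
    obtain ⟨u, hu, rfl⟩ := TREL_ind x
    show TREL_mk B (act 1 u) _ = TREL_mk B u hu
    simp
  map_mul' σ τ := by
    ext x
    obtain ⟨u, hu, rfl⟩ := TREL_ind x
    show TREL_mk B (act (σ * τ) u) _ = TREL_mk B (act σ (act τ u)) _
    simp

theorem TREL_rho_mk (p : ℕ) [Module (ZMod p) (TREL_V Vs B)]
    (hVs : ∀ σ, ∀ u ∈ Vs, act σ u ∈ Vs) (hB : ∀ σ, ∀ u ∈ B, act σ u ∈ B) (σ : G) {u : U}
    (hu : u ∈ Vs) :
    TREL_rho act Vs B p hVs hB σ (TREL_mk B u hu) = TREL_mk B (act σ u) (hVs σ u hu) := rfl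

end Abs

theorem stmt_TransferEl (hT : EC.Stmt_Transfer) : Stmt_TransferEl := by
  intro P W hW hp hirr U _ act Vs B _hBV hne hpow hVs hB hlev hfrob σ c
  have : Fact P.p.Prime := ⟨P.pp⟩
  let _ : Module (ZMod P.p) (TREL_V Vs B) := AddCommGroup.zmodModule (n := P.p) (by
    intro x
    obtain ⟨u, hu, rfl⟩ := TREL_ind x
    rw [TREL_mk_nsmul, TREL_mk_eq_zero]
    exact hpow u hu)
  have : Nontrivial (TREL_V Vs B) := by
    obtain ⟨u, hu, huB⟩ := hne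
    exact ⟨⟨TREL_mk B u hu, 0, fun h => huB ((TREL_mk_eq_zero hu).1 h)⟩⟩
  have hV : EC.VHyp P W (TREL_V Vs B) (TREL_rho act Vs B P.p hVs hB) := by
    constructor
    · obtain ⟨L, hL, h⟩ := hlev
      refine ⟨L, hL, fun σ hσ => ?_⟩
      refine LinearMap.ext fun x => ?_
      obtain ⟨u, hu, rfl⟩ := TREL_ind x
      rw [TREL_rho_mk, Module.End.one_apply, TREL_mk_eq_iff]
      exact h σ hσ u hu
    · obtain ⟨S, h⟩ := hfrob
      refine ⟨S, fun ℓ hℓ hℓS A hA σ hσ => ?_⟩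
      refine LinearMap.ext fun x => ?_
      obtain ⟨u, hu, rfl⟩ := TREL_ind x
      rw [LinearMap.add_apply, LinearMap.sub_apply, Module.End.mul_apply, LinearMap.smul_apply,
        LinearMap.smul_apply, Module.End.one_apply, TREL_rho_mk, TREL_rho_mk,
        Int.cast_smul_eq_zsmul, Nat.cast_smul_eq_nsmul, TREL_mk_zsmul, TREL_mk_nsmul, TREL_mk_sub,
        TREL_mk_add, LinearMap.zero_apply, TREL_mk_eq_zero]
      have := h ℓ hℓ hℓS A hA σ hσ u hu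
      rwa [div_mul_eq_mul_div]
  have key := hT P W hW hp hirr (TREL_V Vs B) (TREL_rho act Vs B P.p hVs hB) hV σ (c : ZMod P.p)
  rw [key]
  constructor
  · intro h u hu
    have := LinearMap.congr_fun h (TREL_mk B u hu)
    rw [TREL_rho_mk, LinearMap.smul_apply, Module.End.one_apply, Nat.cast_smul_eq_nsmul,
      TREL_mk_nsmul, TREL_mk_eq_iff] at this
    exact this
  · intro h
    refine LinearMap.ext fun x => ?_
    obtain ⟨u, hu, rfl⟩ := TREL_ind x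
    rw [TREL_rho_mk, LinearMap.smul_apply, Module.End.one_apply, Nat.cast_smul_eq_nsmul,
      TREL_mk_nsmul, TREL_mk_eq_iff]
    exact h u hu

end Fermat.Agent.MR.VS
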