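import Fermat.Agent.MR.VS.Interface
import Fermat.Agent.ES.Mid.Glue
import Fermat.Agent.MR.EC.EHyp

/-!
# MR / VS : transfer for class groups of functions (`Stmt_TransferFF`, `Stmt_TransferEig`).
helper83
-/

set_option autoImplicit false

namespace Fermat.Agent.MR.VS

open CongruenceSubgroup
open WeierstrassCurve WeierstrassCurve.Affine WeierstrassCurve.Affine.Point
open Fermat.Agent.S24 (Qbar FF)
open Fermat.Agent.ES.Mid
open Fermat.Agent.ORD.Geo (IsClassGroup)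
open Fermat.Agent.MR.EC (rhoE)

/-- the Galois action on `(F_N)ˣ`. -/
noncomputable def TRFF_act (N : ℕ) : GQ →* MulAut (FF N)ˣ where
  toFun σ := Units.mapEquiv (gal N σ).toMulEquiv
  map_one' := MulEquiv.ext fun u => Units.ext (GLUE.gal_one N u)
  map_mul' σ τ := MulEquiv.ext fun u => Units.ext (GLUE.gal_mul N σ τ u)

theorem TRFF_act_coe (N : ℕ) (σ : GQ) (u : (FF N)ˣ) :
    ((TRFF_act N σ u : (FF N)ˣ) : FF N) = gal N σ (u : FF N) := rfl

/-- the units lying in `XX`. -/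
def TRFF_Vs (N p : ℕ) (XX : Set (FF N)) (h : IsClassGroup N p XX) : Subgroup (FF N)ˣ where
  carrier := {u | (u : FF N) ∈ XX}
  mul_mem' := by
    intro a b ha hb
    show ((a * b : (FF N)ˣ) : FF N) ∈ XX
    rw [Units.val_mul]
    exact h.mul _ ha _ hb
  one_mem' := by
    show ((1 : (FF N)ˣ) : FF N) ∈ XX
    have := h.pow 1 one_ne_zero
    rwa [one_pow] at this
  inv_mem' := by
    intro a ha
    show ((a⁻¹ : (FF N)ˣ) : FF N) ∈ XX
    rw [Units.val_inv_eq_inv_val]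
    exact h.inv _ ha

/-- the `p`-th powers. -/
def TRFF_B (N p : ℕ) : Subgroup (FF N)ˣ where
  carrier := {u | ∃ f : FF N, (u : FF N) = f ^ p}
  mul_mem' := by
    rintro a b ⟨f, hf⟩ ⟨g, hg⟩
    exact ⟨f * g, by rw [Units.val_mul, hf, hg, mul_pow]⟩
  one_mem' := ⟨1, by rw [Units.val_one, one_pow]⟩
  inv_mem' := by
    rintro a ⟨f, hf⟩
    exact ⟨f⁻¹, by rw [Units.val_inv_eq_inv_val, hf, inv_pow]⟩

theorem TRFF_mem_Vs {N p : ℕ} {XX : Set (FF N)} {h : IsClassGroup N p XX} {u : (FF N)ˣ} :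
    u ∈ TRFF_Vs N p XX h ↔ (u : FF N) ∈ XX := Iff.rfl

theorem TRFF_mem_B {N p : ℕ} {u : (FF N)ˣ} :
    u ∈ TRFF_B N p ↔ ∃ f : FF N, (u : FF N) = f ^ p := Iff.rfl

theorem stmt_TransferFF (hE : Stmt_TransferEl) (hL : Stmt_LevelFF) : Stmt_TransferFF := by
  intro P W hW hdiv hirr N _ XX hXX hne hgal hfrob σ c
  have : NeZero P.p := ⟨P.pp.ne_zero⟩
  have key := hE P W hW hdiv hirr (FF N)ˣ (TRFF_act N) (TRFF_Vs N P.p XX hXX) (TRFF_B N P.p)
    ?_ ?_ ?_ ?_ ?_ ?_ ?_ σ c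
  · rw [key]
    constructor
    · intro h u hu
      have hu0 := (hXX.isDiv u hu).1
      obtain ⟨f, hf⟩ := h (Units.mk0 u hu0) hu
      rw [Units.val_div_eq_div_val, Units.val_pow_eq_pow_val, TRFF_act_coe, Units.val_mk0] at hf
      exact ⟨f, by rw [← hf, mul_div_cancel₀ _ (pow_ne_zero c hu0)]⟩
    · intro h u hu
      obtain ⟨f, hf⟩ := h u hu
      refine ⟨f, ?_⟩
      rw [Units.val_div_eq_div_val, Units.val_pow_eq_pow_val, TRFF_act_coe, hf,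
        mul_div_cancel_left₀ _ (pow_ne_zero c u.ne_zero)]
  · -- `B ≤ Vs`
    rintro u ⟨f, hf⟩
    have hf0 : f ≠ 0 := by
      rintro rfl
      rw [zero_pow P.pp.ne_zero] at hf
      exact u.ne_zero hf
    show (u : FF N) ∈ XX
    rw [hf]
    exact hXX.pow f hf0
  · -- nontrivial
    obtain ⟨u, hu, hnp⟩ := hne
    exact ⟨Units.mk0 u (hXX.isDiv u hu).1, hu, hnp⟩
  · -- `p`-torsion
    intro u _
    exact ⟨u, by rw [Units.val_pow_eq_pow_val]⟩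
  · -- stability of `Vs`
    intro τ u hu
    exact hgal τ u hu
  · -- stability of `B`
    rintro τ u ⟨f, hf⟩
    exact ⟨gal N τ f, by rw [TRFF_act_coe, hf, map_pow]⟩
  · -- level
    obtain ⟨L, hLfin, hL'⟩ := hL N P.p
    refine ⟨L, hLfin, fun τ hτ u hu => ?_⟩
    obtain ⟨f, hf⟩ := hL' τ hτ u (hXX.isDiv u hu)
    exact ⟨f, by rw [Units.val_div_eq_div_val, TRFF_act_coe, hf, mul_div_cancel_left₀ _ u.ne_zero]⟩
  · -- Frobenius
    obtain ⟨S, hS⟩ := hfrob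
    refine ⟨S, fun ℓ hℓ hℓS A hA τ hτ u hu => ?_⟩
    obtain ⟨f, hf⟩ := hS ℓ hℓ hℓS A hA τ hτ u hu
    refine ⟨f, ?_⟩
    rw [Units.val_div_eq_div_val, Units.val_mul, Units.val_pow_eq_pow_val,
      Units.val_zpow_eq_zpow_val, TRFF_act_coe, TRFF_act_coe, hf,
      mul_div_cancel_left₀ _ (zpow_ne_zero _ (GLUE.gal_ne_zero N τ u.ne_zero))]

theorem stmt_TransferEig (hT : Stmt_TransferFF) (hF : Stmt_EigFrob) : Stmt_TransferEig := by
  intro P W hW hdiv hirr N _ XX hXX hsub hne hgal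
  have : NeZero P.p := ⟨P.pp.ne_zero⟩
  refine hT P W hW hdiv hirr N XX hXX hne hgal
    ⟨N.primeFactors ∪ {P.p} ∪ (W.Δ.natAbs).primeFactors, ?_⟩
  intro ℓ hℓ hS A hA σ hσ u hu
  rw [Finset.mem_union, Finset.mem_union, not_or, not_or, Finset.mem_singleton] at hS
  obtain ⟨⟨hS1, hS2⟩, hS3⟩ := hS
  have hℓN : ¬ ℓ ∣ N := fun h => hS1 (Nat.mem_primeFactors.2 ⟨hℓ, h, NeZero.ne N⟩)
  have hgood : W.IsGoodPrimeFor ℓ := by
    intro hd
    apply hS3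
    rw [Nat.mem_primeFactors]
    exact ⟨hℓ, Int.natCast_dvd.1 hd, Int.natAbs_ne_zero.2 (EC.EHyp_disc_ne P W hW)⟩
  exact hF N P.p P.pp (fun ℓ => W.apOfModel ℓ) (fun ℓ => W.IsGoodPrimeFor ℓ ∧ ℓ ≠ P.p) ℓ hℓ hℓN
    hS2 ⟨hgood, hS2⟩ A hA σ hσ u (hsub hu)

end Fermat.Agent.MR.VS
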