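import Fermat.Agent.MR.VS.TorsSurj
import Fermat.Agent.MR.VS.DivLift
import Fermat.Agent.MR.VS.RedSurj
import Fermat.Agent.MR.VS.PELift
import Fermat.Agent.MR.VS.RedH
import Fermat.Agent.MR.VS.Socle
import Fermat.Agent.MR.VS.EigChar
import Fermat.Agent.MR.VS.EigDict
import Fermat.Agent.MR.VS.CongOfForm
import Fermat.Agent.MR.VS.EigGroup
import Fermat.Agent.MR.VS.LevelFrob
import Fermat.Agent.MR.VS.TransferEl
import Fermat.Agent.MR.VS.TransferFF
import Fermat.Agent.MR.EC.All

/-!
# MR / VS : all statements of `MR/VS/Interface.lean`, unconditionally (helper90)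
-/

set_option autoImplicit false

namespace Fermat.Agent.MR.VS.All

theorem torsSurj : Stmt_TorsSurj := stmt_TorsSurj
theorem divLift : Stmt_DivLift := stmt_DivLift torsSurj
theorem redSurj : Stmt_RedSurj := stmt_RedSurj divLift
theorem peLift : Stmt_PELift := stmt_PELift redSurj
theorem redH : Stmt_RedH := stmt_RedH
theorem socle : Stmt_Socle := stmt_Socle
theorem eigChar : Stmt_EigChar := stmt_EigChar socle redH
theorem noEigChar : Stmt_NoEigChar := stmt_NoEigChar peLift redH
theorem eigDict : Stmt_EigDict := stmt_EigDict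
theorem noEig : Stmt_NoEig := stmt_NoEig eigDict noEigChar
theorem eigFun : Stmt_EigFun := stmt_EigFun eigDict eigChar
theorem congOfForm : Stmt_CongOfForm := stmt_CongOfForm
theorem eigGroup : Stmt_EigGroup := stmt_EigGroup
theorem levelFF : Stmt_LevelFF := stmt_LevelFF
theorem frobFF : Stmt_FrobFF := stmt_FrobFF
theorem eigFrob : Stmt_EigFrob := stmt_EigFrob frobFF eigGroup
theorem transferEl : Stmt_TransferEl := stmt_TransferEl EC.All.transfer
theorem transferFF : Stmt_TransferFF := stmt_TransferFF transferEl levelFF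
theorem transferEig : Stmt_TransferEig := stmt_TransferEig transferFF eigFrob

end Fermat.Agent.MR.VS.All
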