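import Fermat.Agent.MR.VS.Interface
import Fermat.Agent.MR.Skel.Interface
import Fermat.Agent.BR.F.Interface

/-!
# MR / VS : sub-interface of the block [NEW] (`Skel.Stmt_NEW`), architect helper90

`N₁ = p N'`, `YY = EigCl N₁ p a Good ⊆ F_{N₁}`, `XX = PB N₁ (M p) p YY ⊆ F_{M p}` (pull-back).
* (PB-*)  : pull-back of class groups along `F_{L₁} ⊆ F_{L₂}`, `L₁ ∣ L₂`;
* (AL-*)  : compatibility with the Atkin-Lehner involution;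
* (NN-*)  : `congIdeal N' = ⊤` ⟹ `N_p² = 1` on the eigenclasses of level `p N'`.
-/

set_option autoImplicit false
set_option synthInstance.maxHeartbeats 400000

namespace Fermat.Agent.MR.VS

open CongruenceSubgroup CuspForm ModularCurve
open WeierstrassCurve WeierstrassCurve.Affine WeierstrassCurve.Affine.Point
open Fermat.Agent.S24 (Qbar FF)
open Fermat.Agent.ES.Mid
open Fermat.Agent.ORD.Geo (IsClassGroup)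
open Fermat.Agent.ORD.Dep (formalU)

/-! ## Part 1 : pull-back -/

/-- the pull-back of a class group. -/
def PB (L₁ L₂ p : ℕ) (YY : Set (FF L₁)) : Set (FF L₂) :=
  {x | ∃ u ∈ YY, ∃ g : FF L₂, g ≠ 0 ∧
    (x : LaurentSeries Qbar) = (u : LaurentSeries Qbar) * (g : LaurentSeries Qbar) ^ p}

/-- (PB-DIV) -/
def Stmt_PBDiv : Prop :=
  ∀ (L₁ L₂ : ℕ) [NeZero L₁] [NeZero L₂], L₁ ∣ L₂ → ∀ (m : ℕ) (u : FF L₁) (x : FF L₂),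
    (x : LaurentSeries Qbar) = (u : LaurentSeries Qbar) → IsDiv L₁ m u → IsDiv L₂ m x

/-- (PB-INJ) -/
def Stmt_PBInj : Prop :=
  ∀ (L₁ L₂ : ℕ) [NeZero L₁] [NeZero L₂], L₁ ∣ L₂ → ∀ p : ℕ, p.Prime →
    ¬ p ∣ IntermediateField.relfinrank (modularFunctionFieldBar L₁) (modularFunctionFieldBar L₂) →
    ∀ (u : FF L₁) (g : FF L₂), (u : LaurentSeries Qbar) = (g : LaurentSeries Qbar) ^ p →
      ∃ f : FF L₁, u = f ^ p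

/-- (PB-DEG) -/
def Stmt_PBDeg : Prop :=
  ∀ (N' p M : ℕ) [NeZero (p * N')] [NeZero (M * p)], ¬ 4 ∣ N' → p.Prime → 5 ≤ p →
    M = Nat.lcm N' 4 →
    ¬ p ∣ IntermediateField.relfinrank (modularFunctionFieldBar (p * N'))
      (modularFunctionFieldBar (M * p))

/-- (PB-GROUP) -/
def Stmt_PBGroup : Prop :=
  ∀ (L₁ L₂ : ℕ) [NeZero L₁] [NeZero L₂], L₁ ∣ L₂ → ∀ (p : ℕ) (YY : Set (FF L₁)),
    IsClassGroup L₁ p YY →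
    IsClassGroup L₂ p (PB L₁ L₂ p YY) ∧
    ((∀ σ : GQ, ∀ u ∈ YY, gal L₁ σ u ∈ YY) →
      ∀ σ : GQ, ∀ x ∈ PB L₁ L₂ p YY, gal L₂ σ x ∈ PB L₁ L₂ p YY) ∧
    (∀ (σ : GQ) (ℓ : ℕ) (a : ℤ),
      (∀ u ∈ YY, ∃ f : FF L₁, gal L₁ σ (gal L₁ σ u) * u ^ ℓ = gal L₁ σ u ^ a * f ^ p) →
      ∀ x ∈ PB L₁ L₂ p YY, ∃ f : FF L₂,
        gal L₂ σ (gal L₂ σ x) * x ^ ℓ = gal L₂ σ x ^ a * f ^ p)

/-- (PB-HECKE) -/
def Stmt_PBHecke : Prop :=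
  ∀ (L₁ L₂ : ℕ) [NeZero L₁] [NeZero L₂], L₁ ∣ L₂ → ∀ (p : ℕ) [NeZero p] (a : ℕ → ℤ)
    (Good : ℕ → Prop), ∀ x ∈ PB L₁ L₂ p (EigCl L₁ p a Good),
    ∀ (ℓ : ℕ) [NeZero ℓ], ℓ.Prime → ¬ ℓ ∣ L₂ → Good ℓ → Skel.HeckeRel L₂ p ℓ (a ℓ) x

/-! ## Part 2 : Atkin-Lehner -/

/-- (AL-RES) `w_p` of level `M p` restricts to `w_p` of level `N₁ ∣ M p`, `p ∣ N₁`. -/
def Stmt_ALRes : Prop :=
  ∀ (p M N₁ : ℕ) [NeZero N₁] [NeZero (M * p)], p.Prime → ¬ p ∣ M → N₁ ∣ M * p → p ∣ N₁ →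
    ∀ W : FF (M * p) ≃ₐ[Qbar] FF (M * p), BR.Inst.IsAL M p W →
    ∀ w : FF N₁ ≃ₐ[Qbar] FF N₁, BR.F.IsAL N₁ p w →
    ∀ (u : FF N₁) (x : FF (M * p)), (x : LaurentSeries Qbar) = (u : LaurentSeries Qbar) →
      ((W x : FF (M * p)) : LaurentSeries Qbar) = ((w u : FF N₁) : LaurentSeries Qbar)

/-- (EIG-AL) the eigenclasses are stable under Atkin-Lehner. -/
def Stmt_EigAL : Prop :=
  ∀ (N : ℕ) [NeZero N] (p : ℕ) [NeZero p], p.Prime → ∀ r : ℕ, r.Prime → r ∣ N → ¬ r ^ 2 ∣ N →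
    ∀ w : FF N ≃ₐ[Qbar] FF N, BR.F.IsAL N r w → ∀ (a : ℕ → ℤ) (Good : ℕ → Prop),
    ∀ u ∈ EigCl N p a Good, w u ∈ EigCl N p a Good

/-! ## Part 3 : `N_p² = 1` -/

/-- the congruence ideal of the Hecke algebra away from `S`. -/
noncomputable def congIdealS (N : ℕ) [NeZero N] (S : Set ℕ) (p : ℕ) (a : ℕ → ℤ)
    (Good : ℕ → Prop) : Ideal (heckeAlgebra N 2 S) :=
  Ideal.span ({(p : heckeAlgebra N 2 S)} ∪
    {x | ∃ (ℓ : ℕ) (hℓ : ℓ.Prime) (hℓN : ¬ ℓ ∣ N) (hℓS : ℓ ∉ S), Good ℓ ∧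
      x = heckeAlgebra.T hℓ hℓN hℓS - ((a ℓ : ℤ) : heckeAlgebra N 2 S)})

/-- (NN-ANEMIC) lying over. -/
def Stmt_AnemicTop : Prop :=
  ∀ (N : ℕ) [NeZero N] (S : Set ℕ) (p : ℕ) (a : ℕ → ℤ) (Good : ℕ → Prop),
    (∀ ℓ : ℕ, ℓ.Prime → ¬ ℓ ∣ N → Good ℓ → ℓ ∉ S) →
    MR.congIdeal N p a Good = ⊤ → congIdealS N S p a Good = ⊤

/-- (NN-KILL) -/
def Stmt_KillX : Prop :=
  ∀ (N N' : ℕ) [NeZero N] [NeZero N'], N' ∣ N → ∀ S : Set ℕ, (∀ q : ℕ, q.Prime → q ∣ N → q ∈ S) →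
    ∀ (p : ℕ) (a : ℕ → ℤ) (Good : ℕ → Prop), congIdealS N' S p a Good = ⊤ →
    ∃ x : heckeAlgebra N 2 S, BR.F.KillsLevel N' x ∧ x - 1 ∈ congIdealS N S p a Good

/-- (NN-CHAR) -/
def Stmt_NNChar : Prop :=
  ∀ (N : ℕ) [NeZero N] (p : ℕ) [NeZero p], p.Prime → ∀ (r : Nat.Primes) (hrN : (r : ℕ) ∣ N)
    (S : Set ℕ) (a : ℕ → ℤ) (Good : ℕ → Prop) (x : heckeAlgebra N 2 S), BR.F.NewAt hrN x →
    x - 1 ∈ congIdealS N S p a Good →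
    ∀ χ : Additive (Gamma0 N) →+ ZMod p, IsPE χ → IsEigChar N p a Good χ →
      tau N r (ZMod p) (tau N r (ZMod p) χ) = χ

/-- (NN-FUN) -/
def Stmt_NNFun : Prop :=
  ∀ (N' : ℕ) [NeZero N'] (p : ℕ) [NeZero p] [NeZero (p * N')], p.Prime → ¬ p ∣ N' →
    ∀ (a : ℕ → ℤ) (Good : ℕ → Prop), (∀ ℓ : ℕ, Good ℓ → ℓ ≠ p) →
    MR.congIdeal N' p a Good = ⊤ →
    ∀ u ∈ EigCl (p * N') p a Good, ∀ ζ : Qbarˣ, IsPrimitiveRoot ζ p → ∀ v v' : FF (p * N'),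
      (v : LaurentSeries Qbar) = formalU p ζ (u : LaurentSeries Qbar) →
      (v' : LaurentSeries Qbar) = formalU p ζ (v : LaurentSeries Qbar) →
      ∃ g : FF (p * N'), v' = u * g ^ p

end Fermat.Agent.MR.VS
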