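import Fermat.Agent.MR.VS.Interface

/-!
# MR / VS / TORS-SURJ : abstract counting, `p : G[p^(k+1)] → G[p^k]` is onto   (helper19)
-/

set_option autoImplicit false

namespace Fermat.Agent.MR.VS

/-- **(TORS-SURJ)** -/
theorem stmt_TorsSurj : Stmt_TorsSurj := by
  intro G _ p g hp hcard k x hx
  let A : ℕ → AddSubgroup G := fun k => (nsmulAddMonoidHom (α := G) (p ^ k)).ker
  have hmem : ∀ (k : ℕ) (y : G), y ∈ A k ↔ p ^ k • y = 0 := fun k y => Iff.rfl
  have hA : ∀ k, Nat.card (A k) = p ^ (g * k) := fun k => hcard k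
  let φ : A (k + 1) →+ A k :=
    { toFun := fun y => ⟨p • (y : G), by
        rw [hmem, smul_smul, ← pow_succ]
        exact (hmem _ _).1 y.2⟩
      map_zero' := Subtype.ext (smul_zero p)
      map_add' := fun a b => Subtype.ext (smul_add p (a : G) (b : G)) }
  have hφ : ∀ y : A (k + 1), ((φ y : A k) : G) = p • (y : G) := fun _ => rfl
  have h1 : Nat.card (A (k + 1)) = Nat.card (A (k + 1) ⧸ φ.ker) * Nat.card φ.ker :=
    AddSubgroup.card_eq_card_quotient_mul_card_addSubgroup _
  have h2 : Nat.card (A (k + 1) ⧸ φ.ker) = Nat.card φ.range :=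
    Nat.card_congr (QuotientAddGroup.quotientKerEquivRange φ).toEquiv
  have h3 : Nat.card φ.ker = Nat.card (A 1) := by
    refine Nat.card_congr
      { toFun := fun y => ⟨((y : A (k + 1)) : G), ?_⟩
        invFun := fun y => ⟨⟨(y : G), ?_⟩, ?_⟩
        left_inv := fun y => rfl
        right_inv := fun y => rfl }
    · rw [hmem, pow_one, ← hφ]
      have := y.2
      rw [AddMonoidHom.mem_ker] at this
      rw [this]
      rfl
    · have := (hmem _ _).1 y.2
      rw [pow_one] at this
      rw [hmem, pow_succ, ← smul_smul, this, smul_zero]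
    · rw [AddMonoidHom.mem_ker]
      apply Subtype.ext
      rw [hφ]
      have := (hmem _ _).1 y.2
      rw [pow_one] at this
      exact this
  rw [h2, h3, hA, hA, mul_one, mul_add, mul_one, pow_add] at h1
  have h4 : Nat.card φ.range = Nat.card (A k) := by
    rw [hA]
    exact (Nat.eq_of_mul_eq_mul_right (pow_pos hp.pos g) h1).symm
  have hfin : Finite (A k) := Nat.finite_of_card_ne_zero (by
    rw [hA]
    exact (pow_pos hp.pos _).ne')
  have h5 : φ.range = ⊤ := AddSubgroup.eq_top_of_card_eq _ h4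
  have h6 : (⟨x, (hmem k x).2 hx⟩ : A k) ∈ φ.range := by
    rw [h5]
    exact AddSubgroup.mem_top _
  obtain ⟨y, hy⟩ := h6
  exact ⟨(y : G), (hmem _ _).1 y.2, congrArg Subtype.val hy⟩

end Fermat.Agent.MR.VS
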